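import Fermat.Agent.RT.Local.Homog
import Fermat.Agent.Patching.Avoidance
import Mathlib.RingTheory.KrullDimension.NonZeroDivisors
import Mathlib.RingTheory.Ideal.HasGoingUp
import Mathlib.RingTheory.Ideal.KrullsHeightTheorem
import Mathlib.RingTheory.MvPowerSeries.NoZeroDivisors

/-!
Ihara avoidance at a prime of scalar residual Frobenius, with several possible eigenvalues of
inertia: the discriminant of Frobenius does not kill `M / ϖ M`.  No regular sequences are used:
a component of the support is identified with a parametrised one by a dimension count.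
-/

set_option autoImplicit false
set_option linter.style.haveILetI false

noncomputable section

namespace FLTA.RT.Local

open IsLocalRing MvPowerSeries
open scoped Pointwise

section Dim

variable {R S : Type} [CommRing R] [CommRing S]

lemma ringKrullDim_le_of_integral (f : R →+* S) (hf : f.IsIntegral) :
    ringKrullDim S ≤ ringKrullDim R := by
  letI := f.toAlgebra
  haveI : Algebra.IsIntegral R S := ⟨hf⟩
  exact Order.krullDim_le_of_strictMono
    (fun P => ⟨P.asIdeal.comap (algebraMap R S), inferInstance⟩)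
    fun P Q h => Ideal.IsIntegral.comap_lt_comap (R := R) (I := P.asIdeal) (J := Q.asIdeal) h

lemma le_ringKrullDim_of_integral_injective (f : R →+* S) (hf : f.IsIntegral)
    (hinj : Function.Injective f) : ringKrullDim R ≤ ringKrullDim S := by
  letI := f.toAlgebra
  haveI : Algebra.IsIntegral R S := ⟨hf⟩
  refine iSup_le fun l => ?_
  have hker : RingHom.ker (algebraMap R S) ≤ (RelSeries.head l).asIdeal := by
    rw [show RingHom.ker (algebraMap R S) = ⊥ from (RingHom.injective_iff_ker_eq_bot _).mp hinj]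
    exact bot_le
  obtain ⟨Q, -, hQ, hQl⟩ := Ideal.exists_ideal_over_prime_of_isIntegral
    (RelSeries.head l).asIdeal (⊥ : Ideal S) hker
  haveI := hQ
  haveI : Q.LiesOver (RelSeries.head l).asIdeal := ⟨hQl.symm⟩
  obtain ⟨L, hlen, -, -⟩ := Ideal.exists_ltSeries_of_hasGoingUp l Q
  exact hlen ▸ Order.LTSeries.length_le_krullDim L

/-- Two integral maps from a Noetherian local domain to a domain: if one is injective, so is the
other. -/
lemma injective_of_integral [IsDomain R] [IsNoetherianRing R] [IsLocalRing R]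
    (f g : R →+* S) (hf : f.IsIntegral) (hfi : Function.Injective f) (hg : g.IsIntegral) :
    Function.Injective g := by
  rw [injective_iff_map_eq_zero]
  intro r hr
  by_contra hr0
  let g' : R ⧸ Ideal.span {r} →+* S := Ideal.Quotient.lift _ g fun x hx => by
    obtain ⟨y, rfl⟩ := Ideal.mem_span_singleton.mp hx
    rw [map_mul, hr, zero_mul]
  have hg' : g'.IsIntegral :=
    RingHom.IsIntegral.tower_top (Ideal.Quotient.mk _) g' (by
      rw [Ideal.Quotient.lift_comp_mk]; exact hg)
  have h1 := (le_ringKrullDim_of_integral_injective f hf hfi).trans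
    (ringKrullDim_le_of_integral g' hg')
  have h2 := ringKrullDim_quotient_succ_le_of_nonZeroDivisor
    (mem_nonZeroDivisors_of_ne_zero hr0)
  have h3 : ringKrullDim R + 1 ≤ ringKrullDim R := le_trans (by gcongr) h2
  obtain ⟨d, hd⟩ := WithBot.ne_bot_iff_exists.mp (ringKrullDim_ne_bot (R := R))
  have htop : d ≠ ⊤ := fun h => ringKrullDim_ne_top (R := R) (by rw [← hd, h]; rfl)
  obtain ⟨n, rfl⟩ := ENat.ne_top_iff_exists.mp htop
  rw [← hd] at h3
  change ((((n + 1 : ℕ) : ℕ∞) : WithBot ℕ∞)) ≤ ((n : ℕ∞) : WithBot ℕ∞) at h3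
  have := ENat.natCast_le_natCast.mp (WithBot.coe_le_coe.mp h3)
  omega

end Dim

/-- The three parameters cut parallel null vectors down to zero. -/
lemma mem_of_params {R : Type} [CommRing R] (h2 : IsUnit (2 : R)) (Q : Ideal R) [hQ : Q.IsPrime]
    (v w : Fin 3 → R) (h₀ : v 0 + v 1 - (w 0 + w 1) ∈ Q) (h₁ : v 0 - v 1 + (w 0 - w 1) ∈ Q)
    (h₂ : w 2 ∈ Q) (hmin : ∀ i j, v i * w j - v j * w i ∈ Q) (hq : Q3 v ∈ Q) (j : Fin 3) :
    v j ∈ Q ∧ w j ∈ Q := by
  have h2' : (2 : R ⧸ Q) ≠ 0 := by
    have := (h2.map (Ideal.Quotient.mk Q)).ne_zero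
    rwa [map_ofNat] at this
  simp only [← Ideal.Quotient.eq_zero_iff_mem, map_add, map_sub, map_mul] at *
  rw [map_Q3] at hq
  simp only [Q3] at hq
  set v0 := Ideal.Quotient.mk Q (v 0) with ev0
  set v1 := Ideal.Quotient.mk Q (v 1) with ev1
  set v2 := Ideal.Quotient.mk Q (v 2) with ev2
  set w0 := Ideal.Quotient.mk Q (w 0) with ew0
  set w1 := Ideal.Quotient.mk Q (w 1) with ew1
  set w2 := Ideal.Quotient.mk Q (w 2) with ew2
  have hw0 : w0 = v1 :=
    mul_left_cancel₀ h2' (by linear_combination h₁ - h₀)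
  have hw1 : w1 = v0 :=
    mul_left_cancel₀ h2' (by linear_combination -h₁ - h₀)
  have m01 := hmin 0 1
  have m02 := hmin 0 2
  have m12 := hmin 1 2
  simp only [← ev0, ← ev1, ← ev2, ← ew0, ← ew1, ← ew2, h₂, hw0, hw1, mul_zero, zero_sub,
    neg_eq_zero] at m01 m02 m12
  have hp : v0 * v1 = 0 := by
    have : (2 * 2 : R ⧸ Q) * (v0 * v1) * v0 = 0 := by linear_combination v0 * hq - v2 * m12
    rcases mul_eq_zero.mp this with h | h
    · exact (mul_eq_zero.mp h).resolve_left (mul_ne_zero h2' h2')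
    · rw [h, zero_mul]
  have hv0 : v0 = 0 := by
    rcases mul_eq_zero.mp hp with h | h
    · exact h
    · have : v0 * v0 = 0 := by linear_combination m01 + v1 * h
      exact mul_self_eq_zero.mp this
  have hv1 : v1 = 0 := mul_self_eq_zero.mp (by linear_combination v0 * hv0 - m01)
  have hv2 : v2 = 0 := by
    have : v2 * v2 = 0 := by linear_combination hq - 4 * hp
    exact mul_self_eq_zero.mp this
  fin_cases j
  · exact ⟨hv0, hw0.trans hv1⟩
  · exact ⟨hv1, hw1.trans hv0⟩
  · exact ⟨hv2, h₂⟩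

section Main

instance isDomain_series {σ R : Type} [CommRing R] [IsDomain R] : IsDomain (MvPowerSeries σ R) :=
  NoZeroDivisors.to_isDomain _

variable {O : Type} [CommRing O] [IsDomain O] [IsDiscreteValuationRing O]
  [IsAdicComplete (maximalIdeal O) O]

lemma mk_mem_maximalIdeal {A : Type} [CommRing A] [IsLocalRing A] {P : Ideal A}
    [IsLocalRing (A ⧸ P)] {x : A} (hx : x ∈ maximalIdeal A) :
    Ideal.Quotient.mk P x ∈ maximalIdeal (A ⧸ P) := by
  rw [mem_maximalIdeal, mem_nonunits_iff]
  intro hu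
  have : P ≠ ⊤ := Ideal.Quotient.nontrivial_iff.mp inferInstance
  obtain ⟨y, hy⟩ := Ideal.Quotient.mk_surjective (↑hu.unit⁻¹ : A ⧸ P)
  have h1 : x * y - 1 ∈ P := by
    rw [← Ideal.Quotient.eq_zero_iff_mem, map_sub, map_mul, hy, IsUnit.mul_val_inv, map_one,
      sub_self]
  have h2 := sub_mem (Ideal.mul_mem_right y _ hx) ((le_maximalIdeal this) h1)
  rw [sub_sub_cancel] at h2
  exact (maximalIdeal.isMaximal A).ne_top ((Ideal.eq_top_iff_one _).mpr h2)

/-- The variables `v, w, x` mapped to given elements. -/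
def pairVal {A : Type} {g : ℕ} (v w : Fin 3 → A) (e : Fin g → A) : PV Unit g → A :=
  Sum.elim (Sum.elim (fun ij => v ij.2) e) fun ij => w ij.2

/-- The parameters. -/
def paramVal (g : ℕ) : Fin 3 ⊕ Fin g → MvPowerSeries (PV Unit g) O :=
  Sum.elim ![vv () 0 + vv () 1 - (ww () 0 + ww () 1), vv () 0 - vv () 1 + (ww () 0 - ww () 1),
    ww () 2] fun t => X (Sum.inl (Sum.inr t))

omit [IsAdicComplete (maximalIdeal O) O] in
lemma paramVal_mem (g : ℕ) (i : Fin 3 ⊕ Fin g) :
    paramVal (O := O) g i ∈ maximalIdeal (MvPowerSeries (PV Unit g) O) := by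
  rcases i with i | t
  · rw [mem_maximalIdeal_iff]
    fin_cases i <;> simp [paramVal]
  · exact X_mem_maximalIdeal _

/-- **Ihara avoidance**, several eigenvalues of inertia. -/
theorem false_of_prod {σ : Type} [Finite σ] {M : Type} [AddCommGroup M]
    [Module (MvPowerSeries σ O) M] [Module.Finite (MvPowerSeries σ O) M] (h2 : IsUnit (2 : O))
    {ϖ : O} (hϖ : Irreducible ϖ) {r : ℕ} (θ : MvPowerSeries (Fin r) O →+* MvPowerSeries σ O)
    (hθC : ∀ c, θ (C c) = C c)
    (hθinj : ∀ f, θ f ∈ Module.annihilator (MvPowerSeries σ O) M → f = 0)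
    (hθfin : ((Ideal.Quotient.mk (Module.annihilator (MvPowerSeries σ O) M)).comp θ).IsIntegral)
    (x y z a b c : MvPowerSeries σ O) {k : ℕ} (e : Fin k → MvPowerSeries σ O) (hk : k + 3 ≤ r)
    (hm : ∀ t ∈ [x, y, z, a, b, c], t ∈ maximalIdeal (MvPowerSeries σ O))
    (he : ∀ i, e i ∈ maximalIdeal (MvPowerSeries σ O))
    (hgen : maximalIdeal (MvPowerSeries σ O) ≤ (Module.annihilator (MvPowerSeries σ O) M ⊔
      Ideal.span ({C ϖ, x, y, z, a, b, c} ∪ Set.range e)).radical)
    {Ψ : Type} (s : Finset Ψ) (u : Ψ → O) (hu : ∀ ψ ∈ s, u ψ ∈ maximalIdeal O ∧ u ψ ≠ 0)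
    (hX : ∏ ψ ∈ s, (x * x + y * z - C (u ψ) ^ 2) ∈ Module.annihilator (MvPowerSeries σ O) M)
    (hxb : x * b - y * a ∈ Module.annihilator (MvPowerSeries σ O) M)
    (hxc : x * c - z * a ∈ Module.annihilator (MvPowerSeries σ O) M)
    (hyc : y * c - z * b ∈ Module.annihilator (MvPowerSeries σ O) M)
    (hD : ∀ m : M, (a * a + b * c) • m ∈
      (C ϖ : MvPowerSeries σ O) • (⊤ : Submodule (MvPowerSeries σ O) M)) : False := by
  classical
  simp only [List.forall_mem_cons] at hm
  obtain ⟨hxm, hym, hzm, ham, hbm, hcm, -⟩ := hm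
  set Ann := Module.annihilator (MvPowerSeries σ O) M with hAnn
  have h2A : IsUnit (2 : MvPowerSeries σ O) := two_unit_series h2
  -- a prime of the support meeting the scalars trivially
  letI : Algebra (MvPowerSeries (Fin r) O) (MvPowerSeries σ O ⧸ Ann) :=
    ((Ideal.Quotient.mk Ann).comp θ).toAlgebra
  haveI : Algebra.IsIntegral (MvPowerSeries (Fin r) O) (MvPowerSeries σ O ⧸ Ann) := ⟨hθfin⟩
  obtain ⟨Q₀, -, hQ₀, hQ₀c⟩ := Ideal.exists_ideal_over_prime_of_isIntegral
    (⊥ : Ideal (MvPowerSeries (Fin r) O)) (⊥ : Ideal (MvPowerSeries σ O ⧸ Ann))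
    (fun f hf => (Submodule.mem_bot _).mpr (hθinj f (Ideal.Quotient.eq_zero_iff_mem.mp hf)))
  set P : Ideal (MvPowerSeries σ O) := Q₀.comap (Ideal.Quotient.mk Ann) with hPdef
  haveI hP : P.IsPrime := Ideal.IsPrime.comap _
  have hAP : Ann ≤ P := fun t ht => by
    rw [hPdef, Ideal.mem_comap, Ideal.Quotient.eq_zero_iff_mem.mpr ht]
    exact zero_mem _
  set θP := (Ideal.Quotient.mk P).comp θ with hθP
  have hθPinj : Function.Injective θP := by
    rw [injective_iff_map_eq_zero]
    intro f hf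
    rw [hθP, RingHom.comp_apply, Ideal.Quotient.eq_zero_iff_mem] at hf
    have : f ∈ Q₀.comap (algebraMap (MvPowerSeries (Fin r) O) (MvPowerSeries σ O ⧸ Ann)) := hf
    rwa [hQ₀c] at this
  have hθPint : θP.IsIntegral := by
    have : θP = (Ideal.Quotient.factor hAP).comp ((Ideal.Quotient.mk Ann).comp θ) := by
      rw [hθP, ← RingHom.comp_assoc, Ideal.Quotient.factor_comp_mk]
    rw [this]
    exact RingHom.IsIntegral.trans _ _ hθfin
      (RingHom.IsIntegral.of_finite (RingHom.Finite.of_surjective _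
        (Ideal.Quotient.factor_surjective hAP)))
  haveI : IsLocalRing (MvPowerSeries σ O ⧸ P) :=
    IsLocalRing.of_surjective' _ Ideal.Quotient.mk_surjective
  haveI : IsHausdorff (maximalIdeal (MvPowerSeries σ O ⧸ P)) (MvPowerSeries σ O ⧸ P) :=
    IsHausdorff.of_isLocalRing _ _ (maximalIdeal.isMaximal _).ne_top
  -- the eigenvalue on this component
  obtain ⟨ψ, hψ, hψP⟩ : ∃ ψ ∈ s, x * x + y * z - C (u ψ) ^ 2 ∈ P :=
    (Ideal.IsPrime.prod_mem_iff).mp (hAP hX)
  obtain ⟨g, rfl⟩ : ∃ g, r = 3 + g := ⟨r - 3, by omega⟩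
  let e' : Fin g → MvPowerSeries σ O := fun t => if h : t.val < k then e ⟨t, h⟩ else 0
  have he' : ∀ t, e' t ∈ maximalIdeal (MvPowerSeries σ O) := fun t => by
    simp only [e']
    split_ifs
    · exact he _
    · exact zero_mem _
  let val := pairVal ![y, z, 2 * x] ![b, c, 2 * a] e'
  have hval : ∀ i, val i ∈ maximalIdeal (MvPowerSeries σ O) := by
    rintro ((⟨⟨⟩, j⟩ | t) | ⟨⟨⟩, j⟩)
    · fin_cases j
      · exact hym
      · exact hzm
      · exact Ideal.mul_mem_left _ _ hxm
    · exact he' t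
    · fin_cases j
      · exact hbm
      · exact hcm
      · exact Ideal.mul_mem_left _ _ ham
  let φ : MvPowerSeries (PV Unit g) O →+* MvPowerSeries σ O ⧸ P :=
    (Ideal.Quotient.mk P).comp (evalHom (maximalIdeal _) C val hval)
  have hφX : ∀ i, φ (X i) = Ideal.Quotient.mk P (val i) := fun i => by
    simp only [φ, RingHom.comp_apply, evalHom_X]
  have hφC : ∀ d, φ (C d) = Ideal.Quotient.mk P (C d) := fun d => by
    simp only [φ, RingHom.comp_apply, evalHom_C]
  have hφm : ∀ f ∈ maximalIdeal (MvPowerSeries (PV Unit g) O),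
      φ f ∈ maximalIdeal (MvPowerSeries σ O ⧸ P) := fun f hf =>
    maximalIdeal_map_mem _ φ
      (fun d hd => by
        rw [hφC]
        exact mk_mem_maximalIdeal ((mem_maximalIdeal_iff _).mpr (by simpa using hd)))
      (fun i => by rw [hφX]; exact mk_mem_maximalIdeal (hval i)) hf
  -- the relations
  have hrels : ∀ t ∈ [x * b - y * a, x * c - z * a, y * c - z * b],
      Ideal.Quotient.mk P t = 0 := by
    intro t ht
    simp only [List.mem_cons, List.not_mem_nil, or_false] at ht
    rcases ht with rfl | rfl | rfl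
    · exact Ideal.Quotient.eq_zero_iff_mem.mpr (hAP hxb)
    · exact Ideal.Quotient.eq_zero_iff_mem.mpr (hAP hxc)
    · exact Ideal.Quotient.eq_zero_iff_mem.mpr (hAP hyc)
  simp only [List.forall_mem_cons, map_sub, map_mul] at hrels
  obtain ⟨r1, r2, r3, -⟩ := hrels
  have hmin : ∀ i j, φ (vv () i) * φ (ww () j) = φ (vv () j) * φ (ww () i) := by
    intro i j
    fin_cases i <;> fin_cases j <;>
      simp only [hφX, val, pairVal, Sum.elim_inl, Sum.elim_inr, Fin.mk_one, Fin.zero_eta,
        Fin.reduceFinMk, Matrix.cons_val, map_mul, map_ofNat] <;>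
      first
        | rfl
        | linear_combination r3
        | linear_combination -r3
        | linear_combination (2 : MvPowerSeries σ O ⧸ P) * r1
        | linear_combination -(2 : MvPowerSeries σ O ⧸ P) * r1
        | linear_combination (2 : MvPowerSeries σ O ⧸ P) * r2
        | linear_combination -(2 : MvPowerSeries σ O ⧸ P) * r2
  have h2O : (2 : O) ≠ 0 := h2.ne_zero
  let π : Unit → O := fun _ => 2 * u ψ
  have hπ : ∀ i, π i ∈ maximalIdeal O := fun _ => Ideal.mul_mem_left _ _ (hu ψ hψ).1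
  have hπ0 : ∀ i, π i ≠ 0 := fun _ => mul_ne_zero h2O (hu ψ hψ).2
  have hQ : Q3 (fun j => φ (vv () j)) = φ (C (π ())) ^ 2 := by
    have h := Ideal.Quotient.eq_zero_iff_mem.mpr hψP
    simp only [map_sub, map_add, map_mul, map_pow] at h
    simp only [Q3, hφX, hφC, val, pairVal, π, Sum.elim_inl, Matrix.cons_val, map_mul, map_ofNat]
    linear_combination (4 : MvPowerSeries σ O ⧸ P) * h
  have hπD : φ (C (π ())) ≠ 0 := by
    rw [hφC, ← hθC]
    intro h
    have := hθPinj (h.trans (map_zero θP).symm)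
    apply hπ0 ()
    simpa using congrArg constantCoeff this
  obtain ⟨ε, hε⟩ := exists_ker_psi_le h2 π hπ hπ0 _ φ hφm hmin hQ hπD
  set P' := RingHom.ker (psi (g := g) h2 π hπ ε) with hP'
  haveI : P'.IsPrime := RingHom.ker_isPrime _
  haveI : IsLocalRing (MvPowerSeries (PV Unit g) O ⧸ P') :=
    IsLocalRing.of_surjective' _ Ideal.Quotient.mk_surjective
  let θ₀ : MvPowerSeries (Fin (3 + g)) O →+* MvPowerSeries (PV Unit g) O :=
    evalHom (maximalIdeal _) C (fun i => paramVal g (finSumFinEquiv.symm i))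
      fun i => paramVal_mem g _
  have hkill : ∀ (Q : Ideal (MvPowerSeries (PV Unit g) O)) [Q.IsPrime],
      (∀ d ∈ maximalIdeal O, C d ∈ Q) → (∀ i, θ₀ (X i) ∈ Q) →
      (∀ i j, vv () i * ww () j - vv () j * ww () i ∈ Q) →
      Q3 (fun j => vv (g := g) () j) - C (π ()) ^ 2 ∈ Q → ∀ i, X i ∈ Q := by
    intro Q _ hQc hQt hQmin hQq
    have ht : ∀ i, paramVal g i ∈ Q := fun i => by
      have := hQt (finSumFinEquiv i)
      simpa [θ₀] using this
    have hv : ∀ j, vv () j ∈ Q ∧ ww () j ∈ Q := mem_of_params (two_unit_series h2) Q _ _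
      (by simpa [paramVal] using ht (Sum.inl 0)) (by simpa [paramVal] using ht (Sum.inl 1))
      (by simpa [paramVal] using ht (Sum.inl 2)) hQmin
      ((Q.sub_mem_iff_left (Ideal.pow_mem_of_mem _ (hQc _ (hπ ())) 2 two_pos)).mp hQq)
    rintro ((⟨⟨⟩, j⟩ | t) | ⟨⟨⟩, j⟩)
    · exact (hv j).1
    · simpa [paramVal] using ht (Sum.inr t)
    · exact (hv j).2
  -- the parametrised component is finite over the parameters
  have hfin' : ((Ideal.Quotient.mk P').comp θ₀).Finite := by
    refine finite_of_params (Ideal.Quotient.mk P') Ideal.Quotient.mk_surjective _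
      (fun d => by simp [θ₀]) (fun i => ?_) fun Q hQ' hQc hQt i => ?_
    · rw [RingHom.comp_apply]
      exact mk_mem_maximalIdeal (by simpa [θ₀] using paramVal_mem g _)
    · have := Ideal.IsPrime.comap (Ideal.Quotient.mk P') (K := Q) (hK := hQ')
      have hle : P' ≤ Q.comap (Ideal.Quotient.mk P') := fun t ht => by
        rw [Ideal.mem_comap, Ideal.Quotient.eq_zero_iff_mem.mpr ht]; exact zero_mem _
      refine hkill (Q.comap (Ideal.Quotient.mk P')) (fun d hd => hQc d hd) hQt
        (fun i j => hle ?_) (hle ?_) i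
      · rw [hP', RingHom.mem_ker, map_sub, map_mul, map_mul]
        simp only [psi, evalHom_X, psiAllVal, psiVal, Sum.elim_inl, Sum.elim_inr, map_mul]
        ring
      · rw [hP', RingHom.mem_ker, map_sub, map_pow, map_Q3]
        have hc : ∀ f, psi h2 π hπ ε (inl' f) = inl' (psiV (g := g) h2 π hπ ε f) :=
          RingHom.congr_fun (psi_comp_inl' h2 π hπ ε)
        have h : Q3 (fun j => psi (g := g) h2 π hπ ε (inl' (X (Sum.inl ((), j))))) =
            inl' (C (π ()) ^ 2) := by
          simp only [hc]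
          rw [← psiV_rel (g := g) h2 π hπ ε ()]
          exact (map_Q3 (inl' (O := O) (α := VV Unit g) (β := Unit)) _).symm
        simp only [inl'_X, map_pow, inl'_C] at h
        rw [h, psi, evalHom_C, sub_self]
  -- and so is the component of the support
  have hfin1 : (φ.comp θ₀).Finite := by
    refine finite_of_params (Ideal.Quotient.mk P) Ideal.Quotient.mk_surjective _
      (fun d => by simp [θ₀, hφC]) (fun i => ?_) fun Q hQ' hQc hQt i => ?_
    · rw [RingHom.comp_apply]
      exact hφm _ (by simpa [θ₀] using paramVal_mem g _)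
    · have := Ideal.IsPrime.comap φ (K := Q) (hK := hQ')
      have hall := hkill (Q.comap φ) (fun d hd => by
          rw [Ideal.mem_comap, hφC]; exact hQc d hd) hQt
        (fun i j => by rw [Ideal.mem_comap, map_sub, map_mul, map_mul, hmin, sub_self]; exact zero_mem _)
        (by rw [Ideal.mem_comap, map_sub, map_pow, map_Q3, hQ, sub_self]; exact zero_mem _)
      have hQA := Ideal.IsPrime.comap (Ideal.Quotient.mk P) (K := Q) (hK := hQ')
      suffices maximalIdeal (MvPowerSeries σ O) ≤ Q.comap (Ideal.Quotient.mk P) from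
        this (X_mem_maximalIdeal i)
      have hv : ∀ i, val i ∈ Q.comap (Ideal.Quotient.mk P) := fun i => by
        rw [Ideal.mem_comap, ← hφX]; exact hall i
      refine hgen.trans (hQA.radical_le_iff.mpr (sup_le (fun t ht => ?_) (Ideal.span_le.mpr ?_)))
      · rw [Ideal.mem_comap, Ideal.Quotient.eq_zero_iff_mem.mpr (hAP ht)]; exact zero_mem _
      · rintro t ((rfl | rfl | rfl | rfl | rfl | rfl | rfl) | ⟨i, rfl⟩)
        · exact hQc ϖ hϖ.not_isUnit
        · exact (hQA.mem_or_mem (hv (Sum.inl (Sum.inl ((), 2))))).resolve_left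
            fun h => hQA.ne_top (Ideal.eq_top_of_isUnit_mem _ h h2A)
        · exact hv (Sum.inl (Sum.inl ((), 0)))
        · exact hv (Sum.inl (Sum.inl ((), 1)))
        · exact (hQA.mem_or_mem (hv (Sum.inr ((), 2)))).resolve_left
            fun h => hQA.ne_top (Ideal.eq_top_of_isUnit_mem _ h h2A)
        · exact hv (Sum.inr ((), 0))
        · exact hv (Sum.inr ((), 1))
        · have := hv (Sum.inl (Sum.inr ⟨i.val, by omega⟩))
          simpa [val, pairVal, e'] using this
  have hinj := injective_of_integral θP (φ.comp θ₀) hθPint hθPinj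
    (RingHom.IsIntegral.of_finite hfin1)
  let φ' : MvPowerSeries (PV Unit g) O ⧸ P' →+* MvPowerSeries σ O ⧸ P :=
    Ideal.Quotient.lift P' φ fun t ht => RingHom.mem_ker.mp (hε ht)
  have hφ' : φ'.comp (Ideal.Quotient.mk P') = φ := Ideal.Quotient.lift_comp_mk _ _ _
  have hφ'inj : Function.Injective φ' := by
    rw [RingHom.injective_iff_ker_eq_bot]
    letI := ((Ideal.Quotient.mk P').comp θ₀).toAlgebra
    haveI : Algebra.IsIntegral (MvPowerSeries (Fin (3 + g)) O)
        (MvPowerSeries (PV Unit g) O ⧸ P') := ⟨RingHom.IsIntegral.of_finite hfin'⟩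
    refine Ideal.eq_bot_of_comap_eq_bot (R := MvPowerSeries (Fin (3 + g)) O) ?_
    rw [RingHom.comap_ker, ← RingHom.injective_iff_ker_eq_bot]
    rwa [RingHom.algebraMap_toAlgebra, ← RingHom.comp_assoc, hφ']
  have hφ'int : φ'.IsIntegral := by
    refine RingHom.IsIntegral.tower_top ((Ideal.Quotient.mk P').comp θ₀) φ' ?_
    rw [← RingHom.comp_assoc, hφ']
    exact RingHom.IsIntegral.of_finite hfin1
  -- the reduction of the parametrisation
  let res : MvPowerSeries (PV Unit g) O →+* MvPowerSeries (EV Unit g) (ResidueField O) :=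
    (MvPowerSeries.map (residue O)).comp (psi h2 π hπ ε)
  have hres0 : res (C ϖ) = 0 := by
    simp [res, psi, (residue_eq_zero_iff ϖ).mpr hϖ.not_isUnit]
  have hresD : res (Q3 fun j => ww () j) ≠ 0 := by
    have hν := congrArg (fun f => MvPowerSeries.map (residue O) (inl' (β := Unit) f))
      ((Q3_wHat (O := O) (g := g) ε ()).symm ▸ (nu_spec (g := g) h2 ()).1)
    simp only [map_mul, map_one, map_Q3, map_pow] at hν
    have hX : (X (Sum.inr ()) : MvPowerSeries (EV Unit g) (ResidueField O)) ≠ 0 := fun h => by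
      simpa [coeff_X] using congrArg (coeff (Finsupp.single (Sum.inr () : EV Unit g) 1)) h
    have h : res (Q3 fun j => ww () j) = (X (Sum.inr ())) ^ 2 *
        Q3 fun j => MvPowerSeries.map (residue O) (inl' (β := Unit) (wHat (g := g) ε ((), j))) := by
      rw [map_Q3]
      simp only [res, RingHom.comp_apply, psi, evalHom_X, psiAllVal, Sum.elim_inr,
        map_mul, MvPowerSeries.map_X, Q3]
      ring
    rw [h]
    exact mul_ne_zero (pow_ne_zero 2 hX) (right_ne_zero_of_mul_eq_one hν)
  have hres : RingHom.ker (Ideal.Quotient.mk P') ≤ RingHom.ker res := by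
    intro t ht
    rw [Ideal.mk_ker, hP', RingHom.mem_ker] at ht
    simp [res, ht]
  haveI : (RingHom.ker res).IsPrime := RingHom.ker_isPrime res
  haveI : ((RingHom.ker res).map (Ideal.Quotient.mk P')).IsPrime :=
    Ideal.map_isPrime_of_surjective Ideal.Quotient.mk_surjective hres
  letI := φ'.toAlgebra
  haveI : Algebra.IsIntegral (MvPowerSeries (PV Unit g) O ⧸ P') (MvPowerSeries σ O ⧸ P) :=
    ⟨hφ'int⟩
  obtain ⟨Qb, -, hQb, hQbc⟩ := Ideal.exists_ideal_over_prime_of_isIntegral
    ((RingHom.ker res).map (Ideal.Quotient.mk P')) (⊥ : Ideal (MvPowerSeries σ O ⧸ P))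
    (fun t ht => by
      rw [hφ'inj ((Ideal.mem_comap.mp ht).trans (map_zero φ').symm)]
      exact zero_mem _)
  have hiff : ∀ t, φ t ∈ Qb ↔ res t = 0 := by
    intro t
    rw [← RingHom.mem_ker, ← hφ', RingHom.comp_apply]
    change Ideal.Quotient.mk P' t ∈ Qb.comap φ' ↔ _
    rw [show Qb.comap φ' = (RingHom.ker res).map (Ideal.Quotient.mk P') from hQbc,
      ← Ideal.mem_comap, Ideal.comap_map_of_surjective _ Ideal.Quotient.mk_surjective,
      ← RingHom.ker_eq_comap_bot, sup_eq_left.mpr hres]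
  have hQA := Ideal.IsPrime.comap (Ideal.Quotient.mk P) (K := Qb) (hK := hQb)
  have hsup : Ann ⊔ Ideal.span {C ϖ} ≤ Qb.comap (Ideal.Quotient.mk P) := by
    refine sup_le (fun t ht => ?_) ((Ideal.span_singleton_le_iff_mem _).mpr ?_)
    · rw [Ideal.mem_comap, Ideal.Quotient.eq_zero_iff_mem.mpr (hAP ht)]; exact zero_mem _
    · rw [Ideal.mem_comap, ← hφC]; exact (hiff _).mpr hres0
  have hDmem : a * a + b * c ∈ Qb.comap (Ideal.Quotient.mk P) := by
    refine FLTA.Patching.mem_of_annihilator_quotient_mem M _ hsup hQA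
      (Module.mem_annihilator.mpr fun m => ?_)
    induction m using Submodule.Quotient.induction_on with
    | _ m =>
      rw [← Submodule.Quotient.mk_smul]
      refine (Submodule.Quotient.mk_eq_zero _).mpr ?_
      rw [Submodule.ideal_span_singleton_smul]
      exact hD m
  refine hresD ((hiff _).mp ?_)
  have h4 : φ (Q3 fun j => ww () j) = Ideal.Quotient.mk P (2 * 2 * (a * a + b * c)) := by
    rw [map_Q3]
    simp only [hφX, val, pairVal, Sum.elim_inr, Q3, Matrix.cons_val, map_mul, map_add,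
      map_ofNat]
    ring
  rw [h4]
  exact Ideal.mul_mem_left (Qb.comap (Ideal.Quotient.mk P)) _ hDmem

end Main

end FLTA.RT.Local
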