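import Fermat.Agent.Deformation.PowerSeriesBasic
import Fermat.Prelude.Thm_IsAdicComplete_of_module_finite

/-!
Tools for power series rings in finitely many variables over a complete discrete valuation ring:
evaluation at topologically nilpotent elements, degree filtrations, finiteness.
-/

set_option autoImplicit false

noncomputable section

namespace FLTA.RT.Local

open IsLocalRing MvPowerSeries

variable {σ : Type} {O : Type} [CommRing O]

/-- Degree of an exponent in the variables of `T`. -/
def tdeg (T : Finset σ) (d : σ →₀ ℕ) : ℕ := ∑ i ∈ T, d i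

lemma tdeg_add (T : Finset σ) (d e : σ →₀ ℕ) : tdeg T (d + e) = tdeg T d + tdeg T e := by
  simp [tdeg, Finset.sum_add_distrib]

lemma tdeg_mono (T : Finset σ) {d e : σ →₀ ℕ} (h : d ≤ e) : tdeg T d ≤ tdeg T e :=
  Finset.sum_le_sum fun i _ => h i

/-- The ideal generated by the variables in `T`. -/
abbrev tIdeal (O : Type) [CommRing O] (T : Finset σ) : Ideal (MvPowerSeries σ O) :=
  Ideal.span (X '' (T : Set σ))

lemma exists_le_tdeg (T : Finset σ) (d : σ →₀ ℕ) : ∀ {N : ℕ}, N ≤ tdeg T d →
    ∃ m : σ →₀ ℕ, m ≤ d ∧ m.support ⊆ T ∧ tdeg T m = N := by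
  classical
  intro N
  induction N with
  | zero => exact fun _ => ⟨0, zero_le, by simp, by simp [tdeg]⟩
  | succ N ih =>
    intro h
    obtain ⟨m, hmd, hms, hmN⟩ := ih (by omega)
    obtain ⟨i, hiT, hi⟩ : ∃ i ∈ T, m i < d i := by
      by_contra hcon
      push Not at hcon
      have := Finset.sum_le_sum hcon
      simp only [tdeg] at h hmN
      omega
    refine ⟨m + Finsupp.single i 1, fun j => ?_, fun j hj => ?_, ?_⟩
    · rcases eq_or_ne j i with rfl | hne
      · rw [Finsupp.add_apply, Finsupp.single_eq_same]; exact hi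
      · rw [Finsupp.add_apply, Finsupp.single_eq_of_ne hne, add_zero]; exact hmd j
    · rcases Finset.mem_union.mp (Finsupp.support_add hj) with h' | h'
      · exact hms h'
      · rw [Finsupp.support_single_ne_zero _ one_ne_zero, Finset.mem_singleton] at h'
        exact h' ▸ hiT
    · have h1 : tdeg T (Finsupp.single i 1) = 1 := by simp [tdeg, Finsupp.single_apply, hiT]
      rw [tdeg_add, hmN, h1]

lemma monomial_one_mem_tIdeal_pow {T : Finset σ} {m : σ →₀ ℕ} (h : m.support ⊆ T) :
    monomial m (1 : O) ∈ tIdeal O T ^ tdeg T m := by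
  classical
  rw [monomial_one_eq]
  have hs : tdeg T m = ∑ i ∈ m.support, m i :=
    (Finset.sum_subset h fun i _ hi => Finsupp.notMem_support_iff.mp hi).symm
  rw [hs, Finsupp.prod, ← Finset.prod_pow_eq_pow_sum]
  exact Ideal.prod_mem_prod fun i hi => Ideal.pow_mem_pow (Ideal.subset_span (Set.mem_image_of_mem _ (Finset.mem_coe.mpr (h hi)))) _

lemma coeff_eq_zero_of_mem_tIdeal_pow {T : Finset σ} : ∀ {N : ℕ} {f : MvPowerSeries σ O},
    f ∈ tIdeal O T ^ N → ∀ d, tdeg T d < N → coeff d f = 0 := by
  classical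
  intro N
  induction N with
  | zero => exact fun _ d hd => absurd hd (Nat.not_lt_zero _)
  | succ N ih =>
    intro f hf
    rw [pow_succ] at hf
    refine Submodule.mul_induction_on hf (fun a ha b hb d hd => ?_)
      (fun a b ha hb d hd => by rw [map_add, ha d hd, hb d hd, add_zero])
    induction hb using Submodule.span_induction generalizing a with
    | mem x hx =>
      obtain ⟨i, hi, rfl⟩ := hx
      rw [X, coeff_mul_monomial]
      split_ifs with hle
      · rw [mul_one]
        apply ih ha
        have h2 := tdeg_add T (d - Finsupp.single i 1) (Finsupp.single i 1)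
        rw [tsub_add_cancel_of_le hle] at h2
        have : tdeg T (Finsupp.single i 1) = 1 := by
          simp [tdeg, Finsupp.single_apply, Finset.mem_coe.mp hi]
        omega
      · rfl
    | zero => simp
    | add x y _ _ hx hy => rw [mul_add, map_add, hx a ha, hy a ha, add_zero]
    | smul r x _ hx =>
      rw [smul_eq_mul, ← mul_assoc]
      exact hx _ (Ideal.mul_mem_right _ _ ha)

variable [Finite σ]

lemma mem_tIdeal_pow {T : Finset σ} {N : ℕ} {f : MvPowerSeries σ O}
    (hf : ∀ d, tdeg T d < N → coeff d f = 0) : f ∈ tIdeal O T ^ N := by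
  classical
  cases nonempty_fintype σ
  let pick : (σ →₀ ℕ) → (σ →₀ ℕ) := fun d =>
    if h : N ≤ tdeg T d then (exists_le_tdeg T d h).choose else 0
  let M : Finset (σ →₀ ℕ) := T.finsuppAntidiag N
  have hM : ∀ m, m ∈ M ↔ tdeg T m = N ∧ m.support ⊆ T := fun m => by
    simp [M, Finset.mem_finsuppAntidiag, tdeg]
  let h : (σ →₀ ℕ) → MvPowerSeries σ O := fun m d =>
    if N ≤ tdeg T (d + m) ∧ pick (d + m) = m then coeff (d + m) f else 0
  have hh : ∀ m d, coeff d (h m) =
      if N ≤ tdeg T (d + m) ∧ pick (d + m) = m then coeff (d + m) f else 0 := fun _ _ => rfl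
  have key : f = ∑ m ∈ M, h m * monomial m 1 := by
    ext d
    simp only [map_sum, coeff_mul_monomial, mul_one]
    by_cases hd : N ≤ tdeg T d
    · have hp : pick d = (exists_le_tdeg T d hd).choose := dif_pos hd
      obtain ⟨h1, h2, h3⟩ := hp ▸ (exists_le_tdeg T d hd).choose_spec
      rw [Finset.sum_eq_single (pick d)]
      · rw [if_pos h1, hh, tsub_add_cancel_of_le h1, if_pos ⟨hd, rfl⟩]
      · intro m _ hm
        split_ifs with hle
        · rw [hh, tsub_add_cancel_of_le hle, if_neg fun hc => hm hc.2.symm]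
        · rfl
      · exact fun hn => absurd ((hM _).mpr ⟨h3, h2⟩) hn
    · rw [hf d (not_le.mp hd), Finset.sum_eq_zero]
      intro m hm
      rw [if_neg]
      intro hle
      exact hd (((hM m).mp hm).1 ▸ tdeg_mono T hle)
  rw [key]
  refine Ideal.sum_mem _ fun m hm => Ideal.mul_mem_left _ _ ?_
  exact ((hM m).mp hm).1 ▸ monomial_one_mem_tIdeal_pow ((hM m).mp hm).2

lemma sub_truncTotal_mem (f : MvPowerSeries σ O) (N : ℕ) :
    f - (truncTotal N f : MvPolynomial σ O) ∈
      Ideal.span (Set.range (X : σ → MvPowerSeries σ O)) ^ N := by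
  classical
  cases nonempty_fintype σ
  have h : f - (truncTotal N f : MvPolynomial σ O) ∈ tIdeal O Finset.univ ^ N := by
    refine mem_tIdeal_pow fun d hd => ?_
    rw [map_sub, MvPolynomial.coeff_coe, coeff_truncTotal, sub_self]
    rwa [Finsupp.degree_eq_sum]
  simpa [tIdeal] using h

section Eval

variable {S : Type} [CommRing S] (I : Ideal S) [IsAdicComplete I S] (φ : O →+* S)
  (a : σ → S) (ha : ∀ i, a i ∈ I)

include ha in
lemma evalPoly_mem_pow (n : ℕ) {p : MvPolynomial σ O}
    (hp : p ∈ MvPolynomial.idealOfVars σ O ^ n) : MvPolynomial.eval₂Hom φ a p ∈ I ^ n := by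
  have h := Ideal.mem_map_of_mem (MvPolynomial.eval₂Hom φ a) hp
  rw [Ideal.map_pow] at h
  refine Ideal.pow_right_mono ?_ n h
  rw [MvPolynomial.idealOfVars, Ideal.map_span, Ideal.span_le]
  rintro _ ⟨_, ⟨i, rfl⟩, rfl⟩
  simpa using ha i

/-- Truncated evaluation. -/
def evalLevel (n : ℕ) : MvPowerSeries σ O →+* S ⧸ I ^ n :=
  (Ideal.Quotient.lift (MvPolynomial.idealOfVars σ O ^ n)
      ((Ideal.Quotient.mk (I ^ n)).comp (MvPolynomial.eval₂Hom φ a))
      fun _ hp => Ideal.Quotient.eq_zero_iff_mem.mpr (evalPoly_mem_pow I φ a ha n hp)).comp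
    (truncTotalAlgHom σ O n).toRingHom

lemma evalLevel_apply (n : ℕ) (f : MvPowerSeries σ O) :
    evalLevel I φ a ha n f =
      Ideal.Quotient.mk (I ^ n) (MvPolynomial.eval₂Hom φ a (truncTotal n f)) := rfl

lemma evalLevel_compat {m n : ℕ} (hle : m ≤ n) :
    (Ideal.Quotient.factorPow I hle).comp (evalLevel I φ a ha n) = evalLevel I φ a ha m := by
  ext f
  rw [RingHom.comp_apply, evalLevel_apply, evalLevel_apply, Ideal.Quotient.factor_mk,
    Ideal.Quotient.mk_eq_mk_iff_sub_mem, ← map_sub]
  exact evalPoly_mem_pow I φ a ha m (truncTotal_sub_truncTotal_mem_pow_idealOfVars hle le_rfl f)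

/-- Evaluation of power series at elements of an ideal of completeness. -/
def evalHom : MvPowerSeries σ O →+* S :=
  IsAdicComplete.liftRingHom I (evalLevel I φ a ha) fun hle => evalLevel_compat I φ a ha hle

lemma evalHom_coe (p : MvPolynomial σ O) :
    evalHom I φ a ha (p : MvPowerSeries σ O) = MvPolynomial.eval₂Hom φ a p := by
  apply (sub_eq_zero).mp
  apply IsHausdorff.haus (inferInstance : IsHausdorff I S)
  intro n
  rw [SModEq.sub_mem, sub_zero, smul_eq_mul, Ideal.mul_top,
    ← Ideal.Quotient.mk_eq_mk_iff_sub_mem, evalHom, IsAdicComplete.mk_liftRingHom,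
    evalLevel_apply, Ideal.Quotient.mk_eq_mk_iff_sub_mem, ← map_sub]
  refine evalPoly_mem_pow I φ a ha n ?_
  refine (MvPolynomial.mem_pow_idealOfVars_iff' ..).mpr fun d hd => ?_
  rw [MvPolynomial.coeff_sub, coeff_truncTotal _ hd, MvPolynomial.coeff_coe, sub_self]

@[simp] lemma evalHom_X (i : σ) : evalHom I φ a ha (X i) = a i := by
  rw [← MvPolynomial.coe_X, evalHom_coe, MvPolynomial.eval₂Hom_X']

@[simp] lemma evalHom_C (c : O) : evalHom I φ a ha (C c) = φ c := by
  rw [← MvPolynomial.coe_C, evalHom_coe, MvPolynomial.eval₂Hom_C]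

end Eval

/-- Two ring homomorphisms out of a power series ring into a separated ring agree if they agree
on constants and variables, the latter going into the ideal of separation. -/
lemma ringHom_ext {S : Type} [CommRing S] (I : Ideal S) [IsHausdorff I S]
    {f g : MvPowerSeries σ O →+* S} (hC : ∀ c, f (C c) = g (C c)) (hX : ∀ i, f (X i) = g (X i))
    (hI : ∀ i, f (X i) ∈ I) : f = g := by
  ext x
  apply sub_eq_zero.mp
  apply IsHausdorff.haus (inferInstance : IsHausdorff I S)
  intro n
  rw [SModEq.sub_mem, sub_zero, smul_eq_mul, Ideal.mul_top]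
  have hpol : f.comp MvPolynomial.coeToMvPowerSeries.ringHom =
      g.comp MvPolynomial.coeToMvPowerSeries.ringHom := by
    apply MvPolynomial.ringHom_ext <;> intro i <;> simp [hC, hX]
  have hmap : ∀ h : MvPowerSeries σ O →+* S, (∀ i, h (X i) ∈ I) →
      ∀ y ∈ Ideal.span (Set.range (X : σ → MvPowerSeries σ O)) ^ n, h y ∈ I ^ n := by
    intro h hh y hy
    have := Ideal.mem_map_of_mem h hy
    rw [Ideal.map_pow] at this
    refine Ideal.pow_right_mono ?_ n this
    rw [Ideal.map_span, Ideal.span_le]
    rintro _ ⟨_, ⟨i, rfl⟩, rfl⟩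
    exact hh i
  have hy := sub_truncTotal_mem x n
  have hp : f (truncTotal n x : MvPolynomial σ O) = g (truncTotal n x : MvPolynomial σ O) :=
    RingHom.congr_fun hpol (truncTotal n x)
  have e : f x - g x = f (x - (truncTotal n x : MvPolynomial σ O))
      - g (x - (truncTotal n x : MvPolynomial σ O)) := by
    rw [map_sub, map_sub, hp]; ring
  rw [e]
  exact sub_mem (hmap f hI _ hy) (hmap g (fun i => hX i ▸ hI i) _ hy)

variable [IsDomain O] [IsDiscreteValuationRing O] [IsAdicComplete (maximalIdeal O) O]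

omit [Finite σ] [IsAdicComplete (maximalIdeal O) O] in
lemma mem_maximalIdeal_iff (f : MvPowerSeries σ O) :
    f ∈ maximalIdeal (MvPowerSeries σ O) ↔ constantCoeff f ∈ maximalIdeal O := by
  simp [MvPowerSeries.isUnit_iff_constantCoeff]

omit [Finite σ] [IsAdicComplete (maximalIdeal O) O] in
lemma X_mem_maximalIdeal (i : σ) : (X i : MvPowerSeries σ O) ∈ maximalIdeal _ :=
  (mem_maximalIdeal_iff _).mpr (by simp)

instance isAdicComplete_series :
    IsAdicComplete (maximalIdeal (MvPowerSeries σ O)) (MvPowerSeries σ O) := by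
  cases nonempty_fintype σ
  let e : MvPowerSeries (Fin (Fintype.card σ)) O ≃+* MvPowerSeries σ O :=
    (renameEquiv O (Fintype.equivFin σ).symm).toRingEquiv
  have := Deformation.isAdicComplete_powerSeries O (Fintype.card σ)
  have he : (maximalIdeal (MvPowerSeries (Fin (Fintype.card σ)) O)).map e =
      maximalIdeal (MvPowerSeries σ O) := by
    haveI : ((maximalIdeal (MvPowerSeries (Fin (Fintype.card σ)) O)).map e).IsMaximal :=
      Ideal.map_isMaximal_of_equiv e
    exact IsLocalRing.eq_maximalIdeal inferInstance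
  rw [← he]
  exact (IsAdicComplete.congr_ringEquiv _ e).mpr this

section Finite

variable {τ : Type} [Finite τ] {A : Type} [CommRing A] [IsLocalRing A] [IsNoetherianRing A]

/-- If the only prime of a quotient `A` of a power series ring containing the parameters and the
uniformiser is the maximal one, then `A` is finite over the parameters. -/
theorem finite_of_params (φ : MvPowerSeries σ O →+* A) (hφ : Function.Surjective φ)
    (θ : MvPowerSeries τ O →+* A) (hC : ∀ c, θ (C c) = φ (C c))
    (hθ : ∀ j, θ (X j) ∈ maximalIdeal A)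
    (hprime : ∀ Q : Ideal A, Q.IsPrime → (∀ c ∈ maximalIdeal O, φ (C c) ∈ Q) →
      (∀ j, θ (X j) ∈ Q) → ∀ i, φ (X i) ∈ Q) :
    θ.Finite := by
  classical
  let J : Ideal A := (maximalIdeal (MvPowerSeries τ O)).map θ
  have hcC : ∀ c ∈ maximalIdeal O, φ (C c) ∈ maximalIdeal A := by
    intro c hc
    rw [mem_maximalIdeal, mem_nonunits_iff]
    intro hu
    obtain ⟨y, hy⟩ := hφ ↑hu.unit⁻¹
    have h1 : φ (C c * y) = 1 := by rw [map_mul, hy, IsUnit.mul_val_inv]
    have : C c * y - 1 ∈ maximalIdeal (MvPowerSeries σ O) := by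
      by_contra hn
      have := (IsLocalRing.notMem_maximalIdeal.mp hn).map φ
      rw [map_sub, h1, map_one, sub_self] at this
      exact not_isUnit_zero this
    rw [mem_maximalIdeal_iff] at this
    simp only [map_sub, map_mul, constantCoeff_C, map_one] at this
    exact (maximalIdeal.isMaximal O).ne_top ((Ideal.eq_top_iff_one _).mpr
      (by simpa using sub_mem (Ideal.mul_mem_right (constantCoeff y) _ hc) this))
  have hJle : J ≤ maximalIdeal A := by
    rw [Ideal.map_le_iff_le_comap]
    intro f hf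
    rw [mem_maximalIdeal_iff] at hf
    have h1 := sub_truncTotal_mem f 1
    rw [pow_one] at h1
    have hspan : Ideal.span (Set.range (X : τ → MvPowerSeries τ O)) ≤
        (maximalIdeal A).comap θ := by
      rw [Ideal.span_le]
      rintro _ ⟨j, rfl⟩
      exact hθ j
    have h2 : ((truncTotal 1 f : MvPolynomial τ O) : MvPowerSeries τ O) = C (constantCoeff f) := by
      ext d
      rw [MvPolynomial.coeff_coe, coeff_truncTotal_eq_ite, coeff_C]
      by_cases hd : d = 0
      · simp [hd]
      · rw [if_neg (by rw [Nat.lt_one_iff, Finsupp.degree_eq_zero_iff]; exact hd), if_neg hd]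
    rw [Ideal.mem_comap, show f = (f - (truncTotal 1 f : MvPolynomial τ O))
      + (truncTotal 1 f : MvPolynomial τ O) by ring, map_add, h2, hC]
    rw [h2] at h1
    exact add_mem (hspan h1) (hcC _ hf)
  have hCJ : ∀ c ∈ maximalIdeal O, φ (C c) ∈ J := fun c hc =>
    hC c ▸ Ideal.mem_map_of_mem θ ((mem_maximalIdeal_iff _).mpr (by simpa using hc))
  have hrad : ∀ i, φ (X i) ∈ J.radical := by
    intro i
    rw [Ideal.radical_eq_sInf, Submodule.mem_sInf]
    rintro Q ⟨hJQ, hQ⟩
    exact hprime Q hQ (fun c hc => hJQ (hCJ c hc))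
      (fun j => hJQ (Ideal.mem_map_of_mem θ (X_mem_maximalIdeal j))) i
  let K : Ideal A := Ideal.span (Set.range fun i => φ (X i))
  obtain ⟨N, hN⟩ : ∃ N, K ^ N ≤ J := Ideal.exists_pow_le_of_le_radical_of_fg
    (Ideal.span_le.mpr (by rintro _ ⟨i, rfl⟩; exact hrad i)) (IsNoetherian.noetherian _)
  cases nonempty_fintype σ
  let s : Finset (σ →₀ ℕ) := (Finset.range N).biUnion fun k => Finset.univ.finsuppAntidiag k
  letI : Algebra (MvPowerSeries τ O) A := θ.toAlgebra
  change Module.Finite (MvPowerSeries τ O) A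
  let f : (↥s → MvPowerSeries τ O) →ₗ[MvPowerSeries τ O] A :=
    Fintype.linearCombination (MvPowerSeries τ O) fun d : ↥s => φ (monomial d.1 1)
  have : IsPrecomplete (maximalIdeal (MvPowerSeries τ O)) (↥s → MvPowerSeries τ O) :=
    (IsAdicComplete.of_module_finite (maximalIdeal (MvPowerSeries τ O)) _).toIsPrecomplete
  have hJtop : J ≠ ⊤ := fun hJ => (maximalIdeal.isMaximal A).ne_top
    (top_le_iff.mp (hJ.ge.trans hJle))
  have : IsHausdorff J A := IsHausdorff.of_isLocalRing J A hJtop
  have : IsHausdorff (maximalIdeal (MvPowerSeries τ O)) A :=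
    IsHausdorff.map_algebraMap_iff.mp this
  have hsurj : Function.Surjective
      ((Submodule.mkQ (maximalIdeal (MvPowerSeries τ O) • ⊤)) ∘ₗ f) := by
    intro y
    obtain ⟨y, rfl⟩ := Submodule.mkQ_surjective _ y
    obtain ⟨z, rfl⟩ := hφ y
    refine ⟨fun d => C (coeff d.1 z), ?_⟩
    rw [LinearMap.comp_apply, Submodule.mkQ_apply, Submodule.mkQ_apply, Submodule.Quotient.eq,
      Ideal.smul_top_eq_map]
    change f (fun d => C (coeff d.1 z)) - φ z ∈ J
    have hsum : f (fun d => C (coeff d.1 z)) = φ (truncTotal N z : MvPolynomial σ O) := by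
      have e1 : (truncTotal N z : MvPolynomial σ O) =
          ∑ d : ↥s, MvPolynomial.monomial d.1 (coeff d.1 z) := by
        rw [Finset.univ_eq_attach, Finset.sum_attach _ (fun d => MvPolynomial.monomial d (coeff d z))]
        ext d
        rw [MvPolynomial.coeff_sum, coeff_truncTotal_eq_ite]
        simp only [MvPolynomial.coeff_monomial]
        rw [Finset.sum_ite_eq' _ d]
        simp [s, Finset.mem_finsuppAntidiag, Finsupp.degree_eq_sum]
      rw [e1, ← MvPolynomial.coeToMvPowerSeries.ringHom_apply, map_sum, map_sum]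
      simp only [f, Fintype.linearCombination_apply, Algebra.smul_def,
        MvPolynomial.coeToMvPowerSeries.ringHom_apply, MvPolynomial.coe_monomial]
      refine Finset.sum_congr rfl fun d _ => ?_
      change θ (C _) * _ = _
      rw [hC, ← map_mul, ← monomial_zero_eq_C_apply, monomial_mul_monomial, zero_add, mul_one]
    rw [hsum, ← neg_sub, ← map_sub]
    refine neg_mem (hN ?_)
    have := Ideal.mem_map_of_mem φ (sub_truncTotal_mem z N)
    rw [Ideal.map_pow, Ideal.map_span, ← Set.range_comp] at this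
    exact this
  exact Module.Finite.of_surjective f (surjective_of_mkQ_comp_surjective hsurj)

end Finite

end FLTA.RT.Local
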