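import Fermat.Agent.RT.Local.Norm
import Mathlib.RingTheory.Ideal.Operations

/-!
A solution of `v ∥ w`, `Q(v) = π² ≠ 0` in a domain factors through one of the parametrisations:
homogeneity in `w` reduces the claim to the variables `v, x`, where the norm argument applies.
-/

set_option autoImplicit false

noncomputable section

namespace FLTA.RT.Local

open IsLocalRing MvPowerSeries

section

variable {α β O : Type} [CommRing O]

lemma monomial_joinExp_zero [Fintype β] (m : β →₀ ℕ) :
    monomial (joinExp (0 : α →₀ ℕ) m) (1 : O) = ∏ b, X (Sum.inr b) ^ m b := by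
  classical
  have h : joinExp (0 : α →₀ ℕ) m = ∑ b, Finsupp.single (Sum.inr b) (m b) := by
    ext x
    rw [Finsupp.finsetSum_apply]
    rcases x with a | b
    · simp
    · rw [Finset.sum_eq_single b (fun b' _ hne => Finsupp.single_eq_of_ne (by simpa using hne.symm))
        (by simp)]
      simp
  rw [h]
  induction (Finset.univ : Finset β) using Finset.induction with
  | empty => simp
  | insert b s hb ih =>
    rw [Finset.sum_insert hb, Finset.prod_insert hb, ← ih, X_pow_eq, monomial_mul_monomial, one_mul]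

/-- Coefficient extraction as an additive map. -/
def coeffRHom (m : β →₀ ℕ) : MvPowerSeries (α ⊕ β) O →+ MvPowerSeries α O where
  toFun := coeffR m
  map_zero' := coeffR_zero m
  map_add' := coeffR_add m

@[simp] lemma coeffRHom_apply (m : β →₀ ℕ) (f : MvPowerSeries (α ⊕ β) O) :
    coeffRHom m f = coeffR m f := rfl

lemma map_tIdeal_pow_mem {σ : Type} {S : Type} [CommRing S] (J : Ideal S)
    (ξ : MvPowerSeries σ O →+* S) {T : Finset σ} (h : ∀ a ∈ T, ξ (X a) ∈ J) {N : ℕ}
    {x : MvPowerSeries σ O} (hx : x ∈ tIdeal O T ^ N) : ξ x ∈ J ^ N := by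
  have hle : (tIdeal O T).map ξ ≤ J := by
    rw [tIdeal, Ideal.map_span, Ideal.span_le]
    rintro _ ⟨_, ⟨a, ha, rfl⟩, rfl⟩
    exact h a (Finset.mem_coe.mp ha)
  have := Ideal.mem_map_of_mem ξ hx
  rw [Ideal.map_pow] at this
  exact Ideal.pow_right_mono hle N this

end

variable {O : Type} [CommRing O] [IsDomain O] [IsDiscreteValuationRing O]
  [IsAdicComplete (maximalIdeal O) O] {g : ℕ}
  (h2 : IsUnit (2 : O)) (π : Unit → O) (hπ : ∀ i, π i ∈ maximalIdeal O)

include h2 hπ in
/-- Parallel `v, w` with `Q(v) = π²` in a domain lie on one of the parametrised components. -/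
theorem exists_ker_psi_le (hπ0 : ∀ i, π i ≠ 0) {D : Type} [CommRing D] [IsDomain D] (I : Ideal D)
    [IsHausdorff I D] (φ : MvPowerSeries (PV Unit g) O →+* D)
    (hI : ∀ f ∈ maximalIdeal (MvPowerSeries (PV Unit g) O), φ f ∈ I)
    (hmin : ∀ i j, φ (vv () i) * φ (ww () j) = φ (vv () j) * φ (ww () i))
    (hQ : Q3 (fun j => φ (vv () j)) = φ (C (π ())) ^ 2) (hπD : φ (C (π ())) ≠ 0) :
    ∃ ε : Unit → ℤˣ, RingHom.ker (psi h2 π hπ ε) ≤ RingHom.ker φ := by
  classical
  set φV : MvPowerSeries (VV Unit g) O →+* D := φ.comp inl' with hφV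
  have hIV : ∀ x ∈ maximalIdeal (MvPowerSeries (VV Unit g) O), φV x ∈ I := fun x hx =>
    maximalIdeal_map_mem I φV
      (fun c hc => by
        rw [hφV, RingHom.comp_apply, inl'_C]
        exact hI _ ((mem_maximalIdeal_iff _).mpr (by simpa using hc)))
      (fun a => by
        rw [hφV, RingHom.comp_apply, inl'_X]
        exact hI _ (X_mem_maximalIdeal _)) hx
  have hQV : ∀ i, Q3 (fun j => φV (X (Sum.inl (i, j)))) = φV (C (π i)) ^ 2 := fun i => by
    simpa [hφV] using hQ
  -- one sign change for the whole kernel, by prime avoidance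
  let F : (Unit → ℤˣ) → Ideal (MvPowerSeries (VV Unit g) O) := fun ε =>
    (RingHom.ker φV).comap (flipV ε)
  have hF : ∀ ε, (F ε).IsPrime := fun ε =>
    Ideal.IsPrime.comap (flipV ε) (K := RingHom.ker φV) (hK := RingHom.ker_isPrime φV)
  have hsub : ((RingHom.ker (psiV (g := g) h2 π hπ 1)) : Set (MvPowerSeries (VV Unit g) O)) ⊆
      ⋃ ε ∈ ((Finset.univ : Finset (Unit → ℤˣ)) : Set (Unit → ℤˣ)), (F ε : Set _) := by
    intro f hf
    obtain ⟨ε, hε⟩ := exists_flip_mem h2 π hπ hπ0 I φV hIV hQV (RingHom.mem_ker.mp hf)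
    exact Set.mem_biUnion (Finset.mem_coe.mpr (Finset.mem_univ ε)) hε
  obtain ⟨ε, -, hle⟩ := (Ideal.subset_union_prime (f := F) 1 1 fun i _ _ _ => hF i).mp hsub
  have hV : ∀ f, psiV h2 π hπ ε f = 0 → φV f = 0 := by
    intro f hf
    have h1 : flipV ε f ∈ RingHom.ker (psiV (g := g) h2 π hπ 1) := by
      rw [RingHom.mem_ker, ← RingHom.comp_apply, psiV_flip h2 π hπ ε]
      exact hf
    have h := hle h1
    rw [Ideal.mem_comap, RingHom.mem_ker, flipV_flipV] at h
    rwa [show ε * ε = 1 by funext i; simp [← sq, Int.units_sq], flipV_one] at h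
  refine ⟨ε, fun f hf => ?_⟩
  rw [RingHom.mem_ker] at hf ⊢
  obtain ⟨j₀, hj₀⟩ : ∃ j, φ (vv () j) ≠ 0 := by
    by_contra hcon
    push Not at hcon
    simp [Q3, hcon] at hQ
    exact hπD (pow_eq_zero_iff two_ne_zero |>.mp hQ.symm)
  apply IsHausdorff.haus (inferInstance : IsHausdorff I D)
  intro N
  rw [SModEq.sub_mem, sub_zero, smul_eq_mul, Ideal.mul_top]
  set e : MvPowerSeries (PV Unit g) O :=
    ∑ m ∈ ltExp N, inl' (coeffR m f) * monomial (joinExp 0 m) (1 : O) with he
  have hrem := sub_sum_mem f N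
  rw [← he] at hrem
  let deg : (Unit × Fin 3 →₀ ℕ) → ℕ := fun m => ∑ b, m b
  let W : (Unit × Fin 3 →₀ ℕ) → MvPowerSeries (VV Unit g) O := fun m => ∏ b, wHat ε b ^ m b
  have hterm : ∀ m, psi h2 π hπ ε (inl' (coeffR m f) * monomial (joinExp 0 m) (1 : O)) =
      inl' (psiV h2 π hπ ε (coeffR m f) * W m) *
        monomial (joinExp 0 (Finsupp.single () (deg m))) (1 : O) := by
    intro m
    have h1 := RingHom.congr_fun (psi_comp_inl' (g := g) h2 π hπ ε) (coeffR m f)
    rw [RingHom.comp_apply, RingHom.comp_apply] at h1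
    rw [map_mul, h1, map_mul inl', monomial_joinExp_zero, monomial_joinExp_zero, map_prod]
    simp only [map_pow, psi, evalHom_X, psiAllVal, Sum.elim_inr, mul_pow, W, map_prod, deg]
    rw [Finset.prod_mul_distrib, ← mul_assoc]
    congr 1
    rw [Fintype.prod_unique (fun x : Unit => (X (Sum.inr x) : MvPowerSeries (EV Unit g) O) ^ _)]
    simp only [Finsupp.single_eq_same]
    rw [← Finset.prod_pow_eq_pow_sum]
  have hzero : ∀ K < N, ∑ m ∈ (ltExp N).filter (fun m => deg m = K),
      psiV h2 π hπ ε (coeffR m f) * W m = 0 := by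
    intro K hK
    have h1 : psi h2 π hπ ε (f - e) ∈ tIdeal O (rVars (α := VV Unit g) (β := Unit)) ^ N := by
      refine map_tIdeal_pow_mem _ _ (fun a ha => ?_) hrem
      obtain ⟨b, -, rfl⟩ := Finset.mem_map.mp ha
      simp only [Function.Embedding.inr_apply, psi, evalHom_X, psiAllVal, Sum.elim_inr]
      exact Ideal.mul_mem_left _ _ (Ideal.subset_span
        ⟨_, Finset.mem_coe.mpr (Finset.mem_map_of_mem _ (Finset.mem_univ _)), rfl⟩)
    have h3 := coeffR_eq_zero_of_mem h1 (m := Finsupp.single () K)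
      (by simpa [Finsupp.single_apply] using hK)
    rw [map_sub, hf, zero_sub, ← coeffRHom_apply, map_neg, neg_eq_zero, he, map_sum, map_sum] at h3
    rw [Finset.sum_filter]
    refine Eq.trans (Finset.sum_congr rfl fun m _ => ?_) h3
    rw [coeffRHom_apply, hterm, coeffR_inl'_mul]
    exact if_congr ((Finsupp.single_injective ()).eq_iff).symm rfl rfl
  have he0 : φ e = 0 := by
    rw [he, map_sum, ← Finset.sum_fiberwise_of_maps_to (g := deg) (t := Finset.range N)
      fun m hm => Finset.mem_range.mpr (mem_ltExp.mp hm)]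
    refine Finset.sum_eq_zero fun K hK => ?_
    set gK : MvPowerSeries (VV Unit g) O := ∑ m ∈ (ltExp N).filter (fun m => deg m = K),
      coeffR m f * ∏ b, X (Sum.inl b) ^ m b with hgK
    have hgK0 : psiV h2 π hπ ε gK = 0 := by
      have : psiV h2 π hπ ε gK = (C (π ()) * nu h2 ()) ^ K *
          ∑ m ∈ (ltExp N).filter (fun m => deg m = K), psiV h2 π hπ ε (coeffR m f) * W m := by
        rw [hgK, map_sum, Finset.mul_sum]
        refine Finset.sum_congr rfl fun m hm => ?_
        rw [map_mul, map_prod]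
        simp only [map_pow, psiV, evalHom_X, psiVal, Sum.elim_inl, W]
        rw [← (Finset.mem_filter.mp hm).2]
        have : (∏ b : Unit × Fin 3,
            (C (π b.1) * (nu h2 b.1 * wHat ε b) : MvPowerSeries (VV Unit g) O) ^ m b) =
            (C (π ()) * nu h2 ()) ^ deg m * ∏ b, wHat ε b ^ m b := by
          rw [← Finset.prod_pow_eq_pow_sum, ← Finset.prod_mul_distrib]
          refine Finset.prod_congr rfl fun b _ => ?_
          rw [← mul_pow, ← mul_assoc]
        rw [this]; ring
      rw [this, hzero K (Finset.mem_range.mp hK), mul_zero]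
    have hv := hV gK hgK0
    refine (mul_eq_zero.mp ?_).resolve_left (pow_ne_zero K hj₀)
    calc φ (vv () j₀) ^ K * ∑ m ∈ (ltExp N).filter (fun m => deg m = K),
          φ (inl' (coeffR m f) * monomial (joinExp 0 m) (1 : O))
        = φ (ww () j₀) ^ K * φV gK := by
          rw [hgK, map_sum, Finset.mul_sum, Finset.mul_sum]
          refine Finset.sum_congr rfl fun m hm => ?_
          rw [← (Finset.mem_filter.mp hm).2, monomial_joinExp_zero]
          simp only [hφV, RingHom.comp_apply, map_mul, map_prod, map_pow, inl'_X, deg]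
          rw [← Finset.prod_pow_eq_pow_sum, ← Finset.prod_pow_eq_pow_sum, ← mul_left_comm,
            ← Finset.prod_mul_distrib, mul_left_comm, ← Finset.prod_mul_distrib]
          congr 1
          refine Finset.prod_congr rfl fun b _ => ?_
          rw [← mul_pow, ← mul_pow]
          obtain ⟨⟨⟩, j⟩ := b
          rw [hmin j₀ j, mul_comm]
      _ = 0 := by rw [hv, mul_zero]
  have hkey : φ (f - e) ∈ I ^ N :=
    map_tIdeal_pow_mem I φ (fun a _ => hI _ (X_mem_maximalIdeal a)) hrem
  rwa [map_sub, he0, sub_zero] at hkey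

end FLTA.RT.Local
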