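import Fermat.Agent.RT.Local.Split

/-!
The parametrisation `v = π • e`, `w = s • e` of pairs of parallel vectors with `Q(v) = π²`,
`Q(a, b, c) = c² + 4ab`.
-/

set_option autoImplicit false

noncomputable section

namespace FLTA.RT.Local

open IsLocalRing MvPowerSeries

/-- The quadratic form `c² + 4ab` on triples `(a, b, c)`. -/
def Q3 {R : Type} [CommRing R] (a : Fin 3 → R) : R := a 2 ^ 2 + 4 * a 0 * a 1

lemma map_Q3 {R S : Type} [CommRing R] [CommRing S] (f : R →+* S) (a : Fin 3 → R) :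
    f (Q3 a) = Q3 fun j => f (a j) := by simp [Q3, map_ofNat]

variable {O : Type} [CommRing O] [IsDomain O] [IsDiscreteValuationRing O]
  [IsAdicComplete (maximalIdeal O) O]

lemma two_unit_series {σ : Type} (h2 : IsUnit (2 : O)) : IsUnit (2 : MvPowerSeries σ O) := by
  have := h2.map (C : O →+* MvPowerSeries σ O)
  rwa [map_ofNat] at this

lemma exists_sqrt {σ : Type} [Finite σ] (h2 : IsUnit (2 : O)) {u : MvPowerSeries σ O}
    (hu : u - 1 ∈ maximalIdeal (MvPowerSeries σ O)) :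
    ∃ r, r ^ 2 = u ∧ r - 1 ∈ maximalIdeal (MvPowerSeries σ O) := by
  obtain ⟨r, hr, hr'⟩ := HenselianRing.is_henselian (I := maximalIdeal (MvPowerSeries σ O))
    (Polynomial.X ^ 2 - Polynomial.C u) (Polynomial.monic_X_pow_sub_C _ two_ne_zero) 1
    (by simpa using neg_mem hu)
    (by
      simp only [Polynomial.derivative_sub, Polynomial.derivative_X_pow, Polynomial.derivative_C,
        sub_zero, Polynomial.eval_mul, Polynomial.eval_C, Polynomial.eval_pow, Polynomial.eval_X,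
        one_pow, mul_one, Nat.cast_ofNat]
      exact (two_unit_series h2).map _)
  exact ⟨r, by simpa [Polynomial.IsRoot, sub_eq_zero] using hr, hr'⟩

lemma sqrt_unique {σ : Type} (h2 : IsUnit (2 : O)) {r r' : MvPowerSeries σ O}
    (h : r ^ 2 = r' ^ 2) (hr : r - 1 ∈ maximalIdeal (MvPowerSeries σ O))
    (hr' : r' - 1 ∈ maximalIdeal (MvPowerSeries σ O)) : r = r' := by
  have hne : r + r' ≠ 0 := by
    intro h0
    have : (2 : MvPowerSeries σ O) ∈ maximalIdeal _ := by
      rw [show (2 : MvPowerSeries σ O) = (r + r') - (r - 1) - (r' - 1) by ring, h0]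
      exact sub_mem (sub_mem (zero_mem _) hr) hr'
    exact (mem_maximalIdeal _).mp this (two_unit_series h2)
  have : (r + r') * (r - r') = 0 := by linear_combination h
  exact sub_eq_zero.mp ((mul_eq_zero.mp this).resolve_left hne)

variable (ι : Type) [Fintype ι] [DecidableEq ι] (g : ℕ)

/-- Variables `v` (or `X, Y, Z`) and `x`. -/
abbrev VV : Type := (ι × Fin 3) ⊕ Fin g

/-- Variables `v, x` and `w`. -/
abbrev PV : Type := VV ι g ⊕ (ι × Fin 3)

/-- Variables `X, Y, Z, x` and `s`. -/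
abbrev EV : Type := VV ι g ⊕ ι

variable {ι g}

/-- The variable `v i j`. -/
abbrev vv (i : ι) (j : Fin 3) : MvPowerSeries (PV ι g) O := X (Sum.inl (Sum.inl (i, j)))

/-- The variable `w i j`. -/
abbrev ww (i : ι) (j : Fin 3) : MvPowerSeries (PV ι g) O := X (Sum.inr (i, j))

/-- A sign as a scalar. -/
abbrev sgn (O : Type) [CommRing O] (ε : ι → ℤˣ) (i : ι) : O := (((ε i : ℤˣ) : ℤ) : O)

omit [IsDomain O] [IsDiscreteValuationRing O] [IsAdicComplete (maximalIdeal O) O] [Fintype ι]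
  [DecidableEq ι] in
lemma sgn_mul_self (ε : ι → ℤˣ) (i : ι) : sgn O ε i * sgn O ε i = 1 := by
  rw [sgn, ← Int.cast_mul, ← Units.val_mul, ← sq, Int.units_sq, Units.val_one, Int.cast_one]

/-- The triple `(X, Y, ±(1 + Z))`. -/
def wHat (ε : ι → ℤˣ) (ij : ι × Fin 3) : MvPowerSeries (VV ι g) O :=
  if ij.2 = 2 then C (sgn O ε ij.1) * (1 + X (Sum.inl ij)) else X (Sum.inl ij)

omit [IsDiscreteValuationRing O] [IsAdicComplete (maximalIdeal O) O] [IsDomain O] [Fintype ι]
  [DecidableEq ι] in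
lemma Q3_wHat (ε : ι → ℤˣ) (i : ι) :
    Q3 (fun j => wHat (g := g) ε (i, j)) =
      Q3 (fun j => wHat (O := O) (g := g) (fun _ => 1) (i, j)) := by
  have : (C (sgn O ε i) : MvPowerSeries (VV ι g) O) ^ 2 = 1 := by
    rw [sq, ← map_mul, sgn_mul_self, map_one]
  have h1 : (C (sgn O (fun _ => 1) i) : MvPowerSeries (VV ι g) O) = 1 := by simp [sgn]
  have h02 : (0 : Fin 3) ≠ 2 := by decide
  have h12 : (1 : Fin 3) ≠ 2 := by decide
  simp only [Q3, wHat, if_true, if_neg h02, if_neg h12, mul_pow, this, h1, one_pow]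

section Params

variable (h2 : IsUnit (2 : O))

omit [IsAdicComplete (maximalIdeal O) O] [Fintype ι] [DecidableEq ι] in
lemma Q3_wHat_sub_one (i : ι) :
    Q3 (fun j => wHat (O := O) (g := g) (fun _ => 1) (i, j)) - 1 ∈ maximalIdeal _ := by
  rw [mem_maximalIdeal_iff]
  simp [Q3, wHat, sgn]

include h2

/-- The inverse square root of `Q(X, Y, 1 + Z)`. -/
def nu [Finite ι] (i : ι) : MvPowerSeries (VV ι g) O :=
  Ring.inverse (exists_sqrt h2 (Q3_wHat_sub_one (g := g) i)).choose

lemma nu_spec (i : ι) :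
    nu (g := g) h2 i ^ 2 * Q3 (fun j => wHat (O := O) (g := g) (fun _ => 1) (i, j)) = 1 ∧
      nu (g := g) h2 i - 1 ∈ maximalIdeal _ := by
  obtain ⟨hr, hr1⟩ := (exists_sqrt h2 (Q3_wHat_sub_one (O := O) (g := g) i)).choose_spec
  set r := (exists_sqrt h2 (Q3_wHat_sub_one (O := O) (g := g) i)).choose with hrdef
  have hu : IsUnit r := by
    by_contra hu
    have := sub_mem ((mem_maximalIdeal _).mpr hu) hr1
    rw [show r - (r - 1) = (1 : MvPowerSeries (VV ι g) O) by ring] at this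
    exact (mem_maximalIdeal _).mp this isUnit_one
  have hn : nu (g := g) h2 i * r = 1 := Ring.inverse_mul_cancel r hu
  refine ⟨?_, ?_⟩
  · rw [← hr, ← mul_pow, hn, one_pow]
  · rw [show nu (g := g) h2 i - 1 = -(nu (g := g) h2 i) * (r - 1) by linear_combination hn]
    exact Ideal.mul_mem_left _ _ hr1

variable (π : ι → O) (hπ : ∀ i, π i ∈ maximalIdeal O)

/-- The images of the variables `v, x`. -/
def psiVal (ε : ι → ℤˣ) : VV ι g → MvPowerSeries (VV ι g) O :=
  Sum.elim (fun ij => C (π ij.1) * (nu h2 ij.1 * wHat ε ij)) (fun t => X (Sum.inr t))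

include hπ in
lemma psiVal_mem (ε : ι → ℤˣ) (a : VV ι g) : psiVal h2 π ε a ∈ maximalIdeal _ := by
  rcases a with ij | t
  · exact Ideal.mul_mem_right _ _ ((mem_maximalIdeal_iff _).mpr (by simpa using hπ ij.1))
  · exact X_mem_maximalIdeal _

/-- The parametrisation on the variables `v, x`. -/
def psiV (ε : ι → ℤˣ) : MvPowerSeries (VV ι g) O →+* MvPowerSeries (VV ι g) O :=
  evalHom (maximalIdeal _) C (psiVal h2 π ε) (psiVal_mem h2 π hπ ε)

/-- The images of all variables. -/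
def psiAllVal (ε : ι → ℤˣ) : PV ι g → MvPowerSeries (EV ι g) O :=
  Sum.elim (fun a => inl' (psiVal h2 π ε a)) (fun ij => inl' (wHat ε ij) * X (Sum.inr ij.1))

include hπ in
lemma psiAllVal_mem (ε : ι → ℤˣ) (a : PV ι g) : psiAllVal h2 π ε a ∈ maximalIdeal _ := by
  rcases a with a | ij
  · rw [mem_maximalIdeal_iff]
    simp only [psiAllVal, Sum.elim_inl, inl', AlgHom.toRingHom_eq_coe, RingHom.coe_coe,
      constantCoeff_rename]
    exact (mem_maximalIdeal_iff _).mp (psiVal_mem h2 π hπ ε a)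
  · exact Ideal.mul_mem_left _ _ (X_mem_maximalIdeal _)

/-- The parametrisation. -/
def psi (ε : ι → ℤˣ) : MvPowerSeries (PV ι g) O →+* MvPowerSeries (EV ι g) O :=
  evalHom (maximalIdeal _) C (psiAllVal h2 π ε) (psiAllVal_mem h2 π hπ ε)

lemma psi_comp_inl' (ε : ι → ℤˣ) :
    (psi (g := g) h2 π hπ ε).comp inl' = inl'.comp (psiV h2 π hπ ε) := by
  refine ringHom_ext (maximalIdeal _) (fun c => by simp [psi, psiV]) (fun a => ?_) fun a => ?_
  · simp [psi, psiV, psiAllVal]
  · simp only [RingHom.comp_apply, inl'_X, psi, evalHom_X]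
    exact psiAllVal_mem h2 π hπ ε _

lemma psiV_rel (ε : ι → ℤˣ) (i : ι) :
    Q3 (fun j => psiV (g := g) h2 π hπ ε (X (Sum.inl (i, j)))) = C (π i) ^ 2 := by
  have h := (nu_spec (g := g) h2 i).1
  rw [← Q3_wHat ε i] at h
  simp only [psiV, evalHom_X, psiVal, Sum.elim_inl]
  simp only [Q3] at h ⊢
  linear_combination (C (π i) : MvPowerSeries (VV ι g) O) ^ 2 * h

end Params

end FLTA.RT.Local
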