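import Fermat.Agent.RT.Local.Model

/-!
Sign changes of the parametrisation and the norm argument: a series in `v, x` killed by the
parametrisation vanishes, after some sign change, at every solution of `Q(v) = π²` in a domain.
-/

set_option autoImplicit false

noncomputable section

namespace FLTA.RT.Local

open IsLocalRing MvPowerSeries

variable {O : Type} [CommRing O] [IsDomain O] [IsDiscreteValuationRing O]
  [IsAdicComplete (maximalIdeal O) O] {ι : Type} [Fintype ι] [DecidableEq ι] {g : ℕ}

omit [IsDomain O] [IsDiscreteValuationRing O] [IsAdicComplete (maximalIdeal O) O] in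
lemma rescale_X {σ : Type} (a : σ → O) (s : σ) :
    rescale a (X s : MvPowerSeries σ O) = C (a s) * X s := by
  classical
  ext d
  rw [coeff_rescale, coeff_C_mul, coeff_X]
  split_ifs with h
  · subst h; simp
  · simp

omit [IsDomain O] [IsDiscreteValuationRing O] [IsAdicComplete (maximalIdeal O) O] in
lemma rescale_C {σ : Type} (a : σ → O) (c : O) :
    rescale a (C c : MvPowerSeries σ O) = C c := by
  classical
  ext d
  rw [coeff_rescale, coeff_C]
  split_ifs with h
  · subst h; simp
  · simp

omit [IsDomain O] [IsAdicComplete (maximalIdeal O) O] [IsDiscreteValuationRing O] in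
lemma maximalIdeal_map_mem [IsLocalRing O] {σ : Type} [Finite σ] {S : Type} [CommRing S]
    (I : Ideal S) (ξ : MvPowerSeries σ O →+* S) (hC : ∀ c ∈ maximalIdeal O, ξ (C c) ∈ I)
    (hX : ∀ a, ξ (X a) ∈ I) {x : MvPowerSeries σ O} (hx : x ∈ maximalIdeal _) : ξ x ∈ I := by
  classical
  have hx' : constantCoeff x ∈ maximalIdeal O := by
    simpa [MvPowerSeries.isUnit_iff_constantCoeff] using hx
  have h1 := sub_truncTotal_mem x 1
  rw [pow_one] at h1
  have hle : Ideal.span (Set.range (X : σ → MvPowerSeries σ O)) ≤ I.comap ξ := by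
    rw [Ideal.span_le]
    rintro _ ⟨j, rfl⟩
    exact hX j
  have h4 : ((truncTotal 1 x : MvPolynomial σ O) : MvPowerSeries σ O) = C (constantCoeff x) := by
    ext d
    rw [MvPolynomial.coeff_coe, coeff_truncTotal_eq_ite, coeff_C]
    by_cases hd : d = 0
    · simp [hd]
    · rw [if_neg (by rw [Nat.lt_one_iff, Finsupp.degree_eq_zero_iff]; exact hd), if_neg hd]
  rw [h4] at h1
  have h3 := hle h1
  rw [Ideal.mem_comap, map_sub] at h3
  simpa using add_mem h3 (hC _ hx')

/-- Scalars of the sign change `v i 2 ↦ ± v i 2`. -/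
def flipVec (O : Type) [CommRing O] (ε : ι → ℤˣ) : VV ι g → O :=
  Sum.elim (fun ij => if ij.2 = 2 then sgn O ε ij.1 else 1) fun _ => 1

/-- The sign change. -/
abbrev flipV (ε : ι → ℤˣ) : MvPowerSeries (VV ι g) O →+* MvPowerSeries (VV ι g) O :=
  rescale (flipVec O ε)

omit [IsDomain O] [IsDiscreteValuationRing O] [IsAdicComplete (maximalIdeal O) O] [Fintype ι]
  [DecidableEq ι] in
lemma flipV_flipV (ε δ : ι → ℤˣ) (f : MvPowerSeries (VV ι g) O) :
    flipV δ (flipV ε f) = flipV (ε * δ) f := by
  rw [flipV, flipV, flipV, rescale_rescale]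
  congr 2
  funext a
  rcases a with ⟨i, j⟩ | t
  · simp only [Pi.mul_apply, flipVec, Sum.elim_inl]
    split_ifs <;> simp [sgn, mul_comm]
  · simp [flipVec]

omit [IsDomain O] [IsDiscreteValuationRing O] [IsAdicComplete (maximalIdeal O) O] [Fintype ι]
  [DecidableEq ι] in
lemma flipV_one (f : MvPowerSeries (VV ι g) O) : flipV (1 : ι → ℤˣ) f = f := by
  have : (flipVec O (1 : ι → ℤˣ) : VV ι g → O) = 1 := by
    funext a; rcases a with ⟨i, j⟩ | t <;> simp [flipVec, sgn]
  rw [flipV, this, rescale_one, RingHom.id_apply]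

/-- Variables `b, c, x`. -/
abbrev WV (ι : Type) (g : ℕ) : Type := (ι × Fin 2) ⊕ Fin g

/-- `b, c` among `v`. -/
def wEmb : WV ι g ↪ VV ι g :=
  ⟨Sum.map (fun ik => (ik.1, Fin.castSucc ik.2)) id, Function.Injective.sumMap
    (fun a b h => by
      simp only [Prod.mk.injEq, Fin.castSucc_inj] at h
      exact Prod.ext h.1 h.2) Function.injective_id⟩

variable (h2 : IsUnit (2 : O)) (π : ι → O) (hπ : ∀ i, π i ∈ maximalIdeal O)

include h2 hπ in
lemma psiV_flip (ε : ι → ℤˣ) :
    (psiV (g := g) h2 π hπ 1).comp (flipV ε) = psiV h2 π hπ ε := by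
  refine ringHom_ext (maximalIdeal _) (fun c => ?_) (fun a => ?_) fun a => ?_
  · simp [flipV, rescale_C, psiV]
  · simp only [RingHom.comp_apply, flipV, rescale_X, map_mul, psiV, evalHom_C, evalHom_X]
    rcases a with ⟨i, j⟩ | t
    · simp only [psiVal, flipVec, Sum.elim_inl, wHat]
      split_ifs with h
      · simp [sgn]; ring
      · simp
    · simp [psiVal, flipVec]
  · simp only [RingHom.comp_apply, flipV, rescale_X, map_mul, psiV, evalHom_C, evalHom_X]
    exact Ideal.mul_mem_left _ _ (psiVal_mem h2 π hπ 1 a)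

section Injective

/-- Substitution used to invert the parametrisation on `b, c, x`. -/
def chiVal (ρ : ι → MvPowerSeries (WV ι g) O) : VV ι g → MvPowerSeries (WV ι g) O :=
  Sum.elim (fun ij => if h : ij.2.val < 2 then ρ ij.1 * X (Sum.inl (ij.1, ⟨ij.2.val, h⟩)) else 0)
    fun t => X (Sum.inr t)

lemma chiVal_mem (ρ : ι → MvPowerSeries (WV ι g) O) (a : VV ι g) :
    chiVal ρ a ∈ maximalIdeal (MvPowerSeries (WV ι g) O) := by
  rcases a with ij | t
  · simp only [chiVal, Sum.elim_inl]
    split_ifs
    · exact Ideal.mul_mem_left _ _ (X_mem_maximalIdeal _)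
    · exact zero_mem _
  · exact X_mem_maximalIdeal _

/-- The inclusion of the series in `b, c, x`. -/
abbrev inW : MvPowerSeries (WV ι g) O →+* MvPowerSeries (VV ι g) O :=
  (rename (R := O) (wEmb : WV ι g ↪ VV ι g)).toRingHom

include h2 hπ in
lemma psiV_inW_injective (hπ0 : ∀ i, π i ≠ 0) {a : MvPowerSeries (WV ι g) O}
    (ha : psiV h2 π hπ 1 (inW a) = 0) : a = 0 := by
  classical
  let u : ι → MvPowerSeries (WV ι g) O := fun i =>
    1 - 4 * X (Sum.inl (i, 0)) * X (Sum.inl (i, 1))
  have hu : ∀ i, u i - 1 ∈ maximalIdeal _ := fun i => by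
    rw [mem_maximalIdeal_iff]; simp [u]
  choose r hr hr1 using fun i => exists_sqrt h2 (hu i)
  have hru : ∀ i, IsUnit (r i) := fun i => by
    by_contra h
    have := sub_mem ((mem_maximalIdeal _).mpr h) (hr1 i)
    rw [show r i - (r i - 1) = (1 : MvPowerSeries (WV ι g) O) by ring] at this
    exact (mem_maximalIdeal _).mp this isUnit_one
  let ρ : ι → MvPowerSeries (WV ι g) O := fun i => Ring.inverse (r i)
  let χ : MvPowerSeries (VV ι g) O →+* MvPowerSeries (WV ι g) O :=
    evalHom (maximalIdeal _) C (chiVal ρ) (chiVal_mem ρ)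
  have hloc : ∀ x ∈ maximalIdeal (MvPowerSeries (VV ι g) O), χ x ∈ maximalIdeal _ := fun x hx =>
    maximalIdeal_map_mem _ χ (fun c hc => by simpa [χ] using (mem_maximalIdeal_iff _).mpr (by simpa using hc))
      (fun a => by simpa [χ] using chiVal_mem ρ a) hx
  have hnu : ∀ i, χ (nu (g := g) h2 i) = r i := by
    intro i
    obtain ⟨h1, h1'⟩ := nu_spec (g := g) h2 i
    have e := congrArg χ h1
    rw [map_mul, map_pow, map_one, map_Q3] at e
    have hQ : Q3 (fun j => χ (wHat (fun _ => 1) (i, j))) * r i ^ 2 = 1 := by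
      simp only [Q3, wHat, χ, sgn, Units.val_one, Int.cast_one, map_one, one_mul, if_true,
        if_neg (show (0 : Fin 3) ≠ 2 by decide), if_neg (show (1 : Fin 3) ≠ 2 by decide),
        map_add, evalHom_X, chiVal, Sum.elim_inl]
      simp only [show ((2 : Fin 3) : ℕ) < 2 ↔ False by decide, dif_neg, not_false_eq_true,
        add_zero, show ((0 : Fin 3) : ℕ) < 2 by decide, show ((1 : Fin 3) : ℕ) < 2 by decide,
        dite_true, one_pow]
      have hρ : ρ i * r i = 1 := Ring.inverse_mul_cancel _ (hru i)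
      have hri : r i ^ 2 = 1 - 4 * X (Sum.inl (i, 0)) * X (Sum.inl (i, 1)) := hr i
      change (1 + 4 * (ρ i * X (Sum.inl (i, 0))) * (ρ i * X (Sum.inl (i, 1)))) * r i ^ 2 = 1
      linear_combination hri +
        (4 * X (Sum.inl (i, 0)) * X (Sum.inl (i, 1)) * (ρ i * r i + 1)) * hρ
    refine sqrt_unique h2 ?_ ?_ (hr1 i)
    · calc χ (nu h2 i) ^ 2 = χ (nu h2 i) ^ 2 *
            (Q3 (fun j => χ (wHat (fun _ => 1) (i, j))) * r i ^ 2) := by rw [hQ, mul_one]
        _ = r i ^ 2 := by rw [← mul_assoc, e, one_mul]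
    · have := hloc _ h1'
      rwa [map_sub, map_one] at this
  have hcomp : χ.comp ((psiV h2 π hπ 1).comp inW) =
      rescale (Sum.elim (fun ik : ι × Fin 2 => π ik.1) fun _ => (1 : O)) := by
    refine ringHom_ext (maximalIdeal _) (fun c => ?_) (fun b => ?_) fun b => ?_
    · simp [χ, psiV, inW, rescale_C, rename_C]
    · rcases b with ⟨i, k⟩ | t
      · simp only [RingHom.comp_apply, inW, AlgHom.toRingHom_eq_coe, RingHom.coe_coe, rename_X,
          psiV, evalHom_X, wEmb, Function.Embedding.coeFn_mk, Sum.map_inl, psiVal, Sum.elim_inl,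
          rescale_X]
        have hne : (Fin.castSucc k : Fin 3) ≠ 2 := by
          intro h
          have := congrArg Fin.val h
          simp at this
          omega
        rw [wHat, if_neg hne, map_mul, map_mul, hnu]
        simp only [χ, evalHom_C, evalHom_X, chiVal, Sum.elim_inl, Fin.val_castSucc, k.isLt,
          dite_true]
        have hρ : r i * ρ i = 1 := Ring.mul_inverse_cancel _ (hru i)
        linear_combination (C (π i) * X (Sum.inl (i, k)) : MvPowerSeries (WV ι g) O) * hρ
      · simp [χ, psiV, psiVal, inW, wEmb, rescale_X, chiVal]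
    · simp only [RingHom.comp_apply, inW, AlgHom.toRingHom_eq_coe, RingHom.coe_coe, rename_X,
        psiV, evalHom_X]
      exact hloc _ (psiVal_mem h2 π hπ 1 _)
  have h0 := RingHom.congr_fun hcomp a
  rw [RingHom.comp_apply, RingHom.comp_apply, ha, map_zero] at h0
  ext d
  have := congrArg (coeff d) h0.symm
  rw [coeff_rescale, map_zero, mul_eq_zero] at this
  refine (this.resolve_left ?_).trans (map_zero _).symm
  rw [Finsupp.prod]
  refine Finset.prod_ne_zero_iff.mpr fun b _ => pow_ne_zero _ ?_
  rcases b with ⟨i, k⟩ | t <;> simp [hπ0]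

end Injective

section NormArg

/-- Exponent doubling at the third coordinates. -/
def mult (a : VV ι g) : ℕ := Sum.elim (fun ij => if ij.2 = 2 then 2 else 1) (fun _ => 1) a

include h2 hπ in
/-- The norm argument. -/
theorem exists_flip_mem (hπ0 : ∀ i, π i ≠ 0) {D : Type} [CommRing D] [IsDomain D] (I : Ideal D)
    [IsHausdorff I D] (φ : MvPowerSeries (VV ι g) O →+* D)
    (hI : ∀ f ∈ maximalIdeal (MvPowerSeries (VV ι g) O), φ f ∈ I)
    (hQ : ∀ i, Q3 (fun j => φ (X (Sum.inl (i, j)))) = φ (C (π i)) ^ 2)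
    {f : MvPowerSeries (VV ι g) O} (hf : psiV h2 π hπ 1 f = 0) :
    ∃ ε : ι → ℤˣ, φ (flipV ε f) = 0 := by
  classical
  let N : MvPowerSeries (VV ι g) O := ∏ ε : ι → ℤˣ, flipV ε f
  suffices hN : φ N = 0 by
    rw [map_prod, Finset.prod_eq_zero_iff] at hN
    exact hN.imp fun ε h => h.2
  have hinv : ∀ δ : ι → ℤˣ, flipV δ N = N := by
    intro δ
    rw [map_prod]
    exact Fintype.prod_equiv (Equiv.mulRight δ) _ _ fun ε => flipV_flipV ε δ f
  have heven : ∀ d : VV ι g →₀ ℕ, (∃ i, Odd (d (Sum.inl (i, 2)))) → coeff d N = 0 := by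
    rintro d ⟨i, hi⟩
    have h := congrArg (coeff d) (hinv (Function.update (1 : ι → ℤˣ) i (-1)))
    rw [flipV, coeff_rescale] at h
    have hs : (d.prod fun a m => flipVec O (Function.update (1 : ι → ℤˣ) i (-1)) a ^ m) = -1 := by
      rw [Finsupp.prod_fintype _ _ (fun _ => pow_zero _),
        Finset.prod_eq_single (Sum.inl (i, 2))]
      · simp [flipVec, sgn, hi.neg_one_pow]
      · rintro (⟨i', j⟩ | t) _ hne
        · simp only [flipVec, Sum.elim_inl]
          split_ifs with hj
          · have : i' ≠ i := fun h => hne (by rw [h, hj])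
            simp [sgn, Function.update_of_ne this]
          · simp
        · simp [flipVec]
      · simp
    rw [hs] at h
    have h20 : (2 : O) ≠ 0 := h2.ne_zero
    exact (mul_eq_zero.mp (show (2 : O) * coeff d N = 0 by linear_combination -h)).resolve_left h20
  let dbl : (VV ι g →₀ ℕ) → (VV ι g →₀ ℕ) := fun d =>
    Finsupp.equivFunOnFinite.symm fun a => mult a * d a
  have hdbl : ∀ d a, dbl d a = mult a * d a := fun d a => rfl
  let F : MvPowerSeries (VV ι g) O := fun d => coeff (dbl d) N
  let sq : VV ι g → MvPowerSeries (VV ι g) O := fun a => X a ^ mult a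
  have hsq : HasSubst sq := hasSubst_of_constantCoeff_zero fun a => by
    rcases a with ⟨i, j⟩ | t <;> simp [sq, mult] <;> split_ifs <;> simp
  have hF : substAlgHom (R := O) hsq F = N := by
    ext e
    rw [coe_substAlgHom hsq, coeff_subst hsq]
    have hterm : ∀ d : VV ι g →₀ ℕ, (d.prod fun a m => sq a ^ m) = monomial (dbl d) (1 : O) := by
      intro d
      rw [monomial_one_eq, Finsupp.prod_fintype _ _ (fun _ => pow_zero _),
        Finsupp.prod_fintype _ _ (fun _ => pow_zero _)]
      exact Finset.prod_congr rfl fun a _ => by rw [hdbl, pow_mul]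
    simp only [hterm, coeff_monomial, smul_eq_mul]
    by_cases hex : ∀ i, Even (e (Sum.inl (i, 2)))
    · choose k hk using hex
      let d : VV ι g →₀ ℕ := Finsupp.equivFunOnFinite.symm fun a => Sum.elim
        (fun ij => if ij.2 = 2 then k ij.1 else e (Sum.inl ij)) (fun t => e (Sum.inr t)) a
      have hde : dbl d = e := by
        ext a
        rw [hdbl]
        rcases a with ⟨i, j⟩ | t
        · by_cases hj : j = 2
          · subst hj
            simp [mult, d]
            rw [hk i]; ring
          · simp [mult, d, hj]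
        · simp [mult, d]
      rw [finsum_eq_single _ d]
      · rw [if_pos hde.symm, mul_one]
        show coeff (dbl d) N = coeff e N
        rw [hde]
      · intro d' hd'
        rw [if_neg, mul_zero]
        intro he
        apply hd'
        ext a
        have := congrArg (fun z => z a) (he.symm.trans hde.symm)
        simp only [hdbl] at this
        have hm : mult a ≠ 0 := by
          rcases a with ⟨i, j⟩ | t <;> simp [mult]
          split_ifs <;> simp
        exact Nat.eq_of_mul_eq_mul_left (Nat.pos_of_ne_zero hm) this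
    · push Not at hex
      obtain ⟨i, hi⟩ := hex
      rw [finsum_eq_zero_of_forall_eq_zero, heven e ⟨i, Nat.not_even_iff_odd.mp hi⟩]
      intro d
      rw [if_neg, mul_zero]
      intro he
      apply hi
      rw [he, hdbl]
      simp [mult]
  -- substitute `A² ↦ π² - 4bc`
  let kap : VV ι g → MvPowerSeries (WV ι g) O := Sum.elim
    (fun ij => if h : ij.2.val < 2 then X (Sum.inl (ij.1, ⟨ij.2.val, h⟩))
      else C (π ij.1) ^ 2 - 4 * X (Sum.inl (ij.1, 0)) * X (Sum.inl (ij.1, 1)))
    (fun t => X (Sum.inr t))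
  have hkap : ∀ a, kap a ∈ maximalIdeal _ := by
    rintro (⟨i, j⟩ | t)
    · simp only [kap, Sum.elim_inl]
      split_ifs
      · exact X_mem_maximalIdeal _
      · rw [mem_maximalIdeal_iff]
        simpa using Ideal.pow_mem_of_mem _ (hπ i) 2 two_pos
    · exact X_mem_maximalIdeal _
  let κ : MvPowerSeries (VV ι g) O →+* MvPowerSeries (WV ι g) O :=
    evalHom (maximalIdeal _) C kap hkap
  have hmult : ∀ (i : ι) (j : Fin 3), mult (g := g) (Sum.inl (i, j)) = if j = 2 then 2 else 1 := fun _ _ => rfl
  have key : ∀ {S : Type} [CommRing S] (J : Ideal S) [IsHausdorff J S]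
      (ξ : MvPowerSeries (VV ι g) O →+* S),
      (∀ x ∈ maximalIdeal (MvPowerSeries (VV ι g) O), ξ x ∈ J) →
      (∀ i, Q3 (fun j => ξ (X (Sum.inl (i, j)))) = ξ (C (π i)) ^ 2) →
      ξ N = ξ (inW (κ F)) := by
    intro S _ J _ ξ hJ hξ
    rw [← hF]
    refine RingHom.congr_fun (ringHom_ext J (f := ξ.comp (substAlgHom (R := O) hsq).toRingHom)
      (g := ξ.comp (inW.comp κ)) (fun c => ?_) (fun a => ?_) fun a => ?_) F
    · simp [κ, inW, rename_C]
    · simp only [RingHom.comp_apply, AlgHom.toRingHom_eq_coe, RingHom.coe_coe, substAlgHom_X,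
        κ, evalHom_X]
      rcases a with ⟨i, j⟩ | t
      · simp only [kap, Sum.elim_inl, sq, hmult]
        split_ifs with hj hlt
        · subst hj; simp at hlt
        · subst hj
          simp only [inW, AlgHom.toRingHom_eq_coe, RingHom.coe_coe, map_sub, map_mul, map_pow,
            rename_C, rename_X, map_ofNat]
          have := hξ i
          simp only [Q3] at this
          simp [wEmb] at this ⊢
          linear_combination this
        · simp [inW, wEmb, rename_X]
        · exfalso
          have h3 := j.isLt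
          have : j.val ≠ 2 := fun h => hj (Fin.ext h)
          omega
      · simp [kap, sq, mult, inW, wEmb, rename_X]
    · simp only [RingHom.comp_apply, AlgHom.toRingHom_eq_coe, RingHom.coe_coe, substAlgHom_X]
      apply hJ
      rw [mem_maximalIdeal_iff]
      rcases a with ⟨i, j⟩ | t <;> simp [sq, mult] <;> split_ifs <;> simp
  have hz : κ F = 0 := by
    apply psiV_inW_injective h2 π hπ hπ0
    rw [← key (maximalIdeal _) (psiV h2 π hπ 1) ?_ fun i => by
      rw [psiV_rel, psiV, evalHom_C]]
    · rw [map_prod]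
      exact Finset.prod_eq_zero (Finset.mem_univ 1) (by rw [flipV_one, hf])
    · exact fun x hx => maximalIdeal_map_mem _ _
        (fun c hc => by rw [psiV, evalHom_C]; exact (mem_maximalIdeal_iff _).mpr (by simpa using hc))
        (fun j => by rw [psiV, evalHom_X]; exact psiVal_mem h2 π hπ 1 j) hx
  rw [key I φ hI hQ, hz, map_zero, map_zero]

end NormArg

end FLTA.RT.Local
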