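import Fermat.Agent.RT.Local.Series

/-!
Splitting off finitely many variables: inclusion, coefficient extraction, truncation.
-/

set_option autoImplicit false

noncomputable section

namespace FLTA.RT.Local

open IsLocalRing MvPowerSeries

variable {α β : Type} {O : Type} [CommRing O]

/-- Inclusion of the first group of variables. -/
def inl' : MvPowerSeries α O →+* MvPowerSeries (α ⊕ β) O :=
  (rename (R := O) (Function.Embedding.inl : α ↪ α ⊕ β)).toRingHom

@[simp] lemma inl'_X (a : α) : inl' (β := β) (X a : MvPowerSeries α O) = X (Sum.inl a) := by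
  simp [inl']

@[simp] lemma inl'_C (c : O) : inl' (α := α) (β := β) (C c) = C c := by simp [inl', rename_C]

/-- Joining exponents. -/
def joinExp (d : α →₀ ℕ) (m : β →₀ ℕ) : α ⊕ β →₀ ℕ := Finsupp.sumElim d m

@[simp] lemma joinExp_inl (d : α →₀ ℕ) (m : β →₀ ℕ) (a : α) : joinExp d m (Sum.inl a) = d a := by
  simp [joinExp]

@[simp] lemma joinExp_inr (d : α →₀ ℕ) (m : β →₀ ℕ) (b : β) : joinExp d m (Sum.inr b) = m b := by
  simp [joinExp]

lemma joinExp_surj (x : α ⊕ β →₀ ℕ) : ∃ d m, joinExp d m = x :=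
  ⟨x.comapDomain Sum.inl Sum.inl_injective.injOn, x.comapDomain Sum.inr Sum.inr_injective.injOn,
    Finsupp.ext fun i => by cases i <;> simp⟩

/-- Coefficient of `X^m` (second group) as a series in the first group. -/
def coeffR (m : β →₀ ℕ) (f : MvPowerSeries (α ⊕ β) O) : MvPowerSeries α O :=
  fun d => coeff (joinExp d m) f

@[simp] lemma coeff_coeffR (m : β →₀ ℕ) (f : MvPowerSeries (α ⊕ β) O) (d : α →₀ ℕ) :
    coeff d (coeffR m f) = coeff (joinExp d m) f := rfl

lemma coeffR_add (m : β →₀ ℕ) (f g : MvPowerSeries (α ⊕ β) O) :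
    coeffR m (f + g) = coeffR m f + coeffR m g := by ext; simp

lemma coeffR_zero (m : β →₀ ℕ) : coeffR m (0 : MvPowerSeries (α ⊕ β) O) = 0 := by ext; simp

lemma coeff_joinExp_inl'_mul [DecidableEq β] (a : MvPowerSeries α O) (d : α →₀ ℕ)
    (m m' : β →₀ ℕ) :
    coeff (joinExp d m) (inl' a * monomial (joinExp 0 m') (1 : O)) =
      if m' = m then coeff d a else 0 := by
  classical
  rw [coeff_mul_monomial, mul_one]
  by_cases h : m' = m
  · subst h
    have hle : joinExp (0 : α →₀ ℕ) m' ≤ joinExp d m' := fun i => by cases i <;> simp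
    rw [if_pos hle, if_pos rfl]
    have : joinExp d m' - joinExp 0 m' = d.embDomain Function.Embedding.inl := by
      ext i; cases i with
      | inl a => rw [Finsupp.tsub_apply, joinExp_inl, joinExp_inl]; exact (tsub_zero _).trans (Finsupp.embDomain_apply_self Function.Embedding.inl d a).symm
      | inr b =>
        rw [Finsupp.embDomain_notin_range _ _ _ (by simp)]
        simp
    rw [this]
    exact coeff_embDomain_rename _ a d
  · rw [if_neg h]
    split_ifs with hle
    · obtain ⟨b, hb⟩ : ∃ b, m' b ≠ m b := by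
        by_contra hcon
        push Not at hcon
        exact h (Finsupp.ext hcon)
      apply coeff_rename_eq_zero
      intro hcon
      obtain ⟨y, hy⟩ := hcon
      have h1 := congrArg (fun z => z (Sum.inr b)) hy
      simp only [Finsupp.tsub_apply, joinExp_inr] at h1
      rw [Finsupp.mapDomain_of_notMem_range _ _ (by simp)] at h1
      have := hle (Sum.inr b)
      simp at this
      omega
    · rfl

lemma coeffR_inl'_mul (a : MvPowerSeries α O) (m m' : β →₀ ℕ) [DecidableEq β] :
    coeffR m (inl' a * monomial (joinExp 0 m') (1 : O)) = if m' = m then a else 0 := by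
  ext d
  rw [coeff_coeffR, coeff_joinExp_inl'_mul]
  split_ifs <;> simp_all

variable [Fintype β] [DecidableEq β]

/-- The second group of variables. -/
def rVars : Finset (α ⊕ β) := Finset.univ.map Function.Embedding.inr

lemma tdeg_joinExp (d : α →₀ ℕ) (m : β →₀ ℕ) : tdeg (rVars (α := α)) (joinExp d m) = ∑ b, m b := by
  simp [tdeg, rVars, Finset.sum_map]

/-- Exponents of total degree less than `N`. -/
def ltExp (N : ℕ) : Finset (β →₀ ℕ) :=
  (Finset.range N).biUnion fun k => Finset.univ.finsuppAntidiag k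

lemma mem_ltExp {N : ℕ} {m : β →₀ ℕ} : m ∈ ltExp N ↔ ∑ b, m b < N := by
  simp [ltExp, Finset.mem_finsuppAntidiag]

variable [Finite α]

lemma sub_sum_mem (f : MvPowerSeries (α ⊕ β) O) (N : ℕ) :
    f - ∑ m ∈ ltExp N, inl' (coeffR m f) * monomial (joinExp 0 m) (1 : O) ∈
      tIdeal O (rVars (α := α)) ^ N := by
  classical
  refine mem_tIdeal_pow fun x hx => ?_
  obtain ⟨d, m, rfl⟩ := joinExp_surj x
  rw [tdeg_joinExp] at hx
  rw [map_sub, map_sum, Finset.sum_eq_single m (fun m' _ hm' => by
      rw [coeff_joinExp_inl'_mul, if_neg hm'])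
    (fun hm => absurd (mem_ltExp.mpr hx) hm), coeff_joinExp_inl'_mul, if_pos rfl, coeff_coeffR,
    sub_self]

omit [Finite α] in
lemma coeffR_eq_zero_of_mem {N : ℕ} {f : MvPowerSeries (α ⊕ β) O} {m : β →₀ ℕ}
    (hf : f ∈ tIdeal O (rVars (α := α)) ^ N) (hm : ∑ b, m b < N) : coeffR m f = 0 := by
  ext d
  rw [coeff_coeffR, coeff_eq_zero_of_mem_tIdeal_pow hf _ (by rwa [tdeg_joinExp]), map_zero]

end FLTA.RT.Local
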